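import Mathlib

set_option autoImplicit false

namespace Fermat.Agent.S11

open NumberField Polynomial

section descent

variable {p : ℕ} [hp : Fact p.Prime] {K : Type*} [Field K] [NumberField K]
  [IsCyclotomicExtension {p} ℚ K] {ζ : K} (hζ : IsPrimitiveRoot ζ p)

/-- every `p`-th power in `𝓞 K` is congruent to a rational integer mod `p`. -/
theorem pow_prime_congr_int (x : 𝓞 K) : ∃ m : ℤ, (p : 𝓞 K) ∣ x ^ p - m := by
  have hζ := IsCyclotomicExtension.zeta_spec p ℚ K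
  have htop : Algebra.adjoin ℤ {hζ.toInteger} = ⊤ :=
    IsCyclotomicExtension.Rat.adjoin_singleton_eq_top hζ
  have hx : x ∈ Algebra.adjoin ℤ {hζ.toInteger} := by rw [htop]; trivial
  induction hx using Algebra.adjoin_induction with
  | mem y hy =>
    rw [Set.mem_singleton_iff] at hy
    subst hy
    refine ⟨1, ?_⟩
    have : hζ.toInteger ^ p = 1 := hζ.toInteger_isPrimitiveRoot.pow_eq_one
    simp [this]
  | algebraMap r =>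
    refine ⟨r ^ p, ?_⟩
    simp
  | add y z _ _ hy hz =>
    obtain ⟨m, hm⟩ := hy
    obtain ⟨n, hn⟩ := hz
    obtain ⟨r, hr⟩ := exists_add_pow_prime_eq hp.out y z
    refine ⟨m + n, ?_⟩
    rw [hr]
    have : y ^ p + z ^ p + (p : 𝓞 K) * y * z * r - ((m + n : ℤ) : 𝓞 K)
        = (y ^ p - m) + (z ^ p - n) + (p : 𝓞 K) * (y * z * r) := by
      push_cast; ring
    rw [this]
    exact dvd_add (dvd_add hm hn) (dvd_mul_right _ _)
  | mul y z _ _ hy hz =>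
    obtain ⟨m, hm⟩ := hy
    obtain ⟨n, hn⟩ := hz
    refine ⟨m * n, ?_⟩
    have : (y * z) ^ p - ((m * n : ℤ) : 𝓞 K) = (y ^ p - m) * z ^ p + m * (z ^ p - n) := by
      push_cast; ring
    rw [this]
    exact dvd_add (dvd_mul_of_dvd_left hm _) (dvd_mul_of_dvd_right hn _)

/-- all the factors `x + η y` are divisible by `ζ - 1` as soon as one of them is. -/
theorem dvd_all_of_dvd_prod {x y : 𝓞 K}
    (h : (hζ.toInteger - 1) ∣ ∏ η ∈ nthRootsFinset p (1 : 𝓞 K), (x + η * y)) :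
    ∀ η ∈ nthRootsFinset p (1 : 𝓞 K), (hζ.toInteger - 1) ∣ x + η * y := by
  have hπ : Prime (hζ.toInteger - 1) := hζ.zeta_sub_one_prime'
  obtain ⟨η', hη', hdvd⟩ := (Prime.dvd_finsetProd_iff hπ _).1 h
  intro η hη
  have h1 : (hζ.toInteger - 1) ∣ η - η' :=
    hζ.toInteger_isPrimitiveRoot.sub_one_dvd_sub hp.out hη hη'
  have : x + η * y = (x + η' * y) + (η - η') * y := by ring
  rw [this]
  exact dvd_add hdvd (dvd_mul_of_dvd_left h1 _)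

/-- injectivity of `η ↦ (x + η y)/π mod π`. -/
theorem eq_of_dvd_sub {x y : 𝓞 K} (hy : ¬ (hζ.toInteger - 1) ∣ y) (a : 𝓞 K → 𝓞 K)
    (ha : ∀ η ∈ nthRootsFinset p (1 : 𝓞 K), x + η * y = (hζ.toInteger - 1) * a η)
    {η₁ η₂ : 𝓞 K} (h₁ : η₁ ∈ nthRootsFinset p (1 : 𝓞 K)) (h₂ : η₂ ∈ nthRootsFinset p (1 : 𝓞 K))
    (h : (hζ.toInteger - 1) ∣ a η₁ - a η₂) : η₁ = η₂ := by
  have hπ : Prime (hζ.toInteger - 1) := hζ.zeta_sub_one_prime'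
  by_contra hne
  obtain ⟨u, hu⟩ :=
    hζ.toInteger_isPrimitiveRoot.nthRootsFinset_pairwise_associated_sub_one_sub_of_prime hp.out
      h₁ h₂ hne
  have key : (hζ.toInteger - 1) * (a η₁ - a η₂) = (hζ.toInteger - 1) * (u * y) := by
    have e1 := ha η₁ h₁
    have e2 := ha η₂ h₂
    calc (hζ.toInteger - 1) * (a η₁ - a η₂)
        = (x + η₁ * y) - (x + η₂ * y) := by rw [e1, e2]; ring
      _ = (η₁ - η₂) * y := by ring
      _ = (hζ.toInteger - 1) * (u * y) := by rw [← hu]; ring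
  have key' := mul_left_cancel₀ hπ.ne_zero key
  rw [key'] at h
  rcases hπ.dvd_or_dvd h with h' | h'
  · exact hπ.not_isUnit (isUnit_of_dvd_unit h' u.isUnit)
  · exact hy h'

/-- pigeonhole: some `(x + η₀ y)/π` is divisible by `π`. -/
theorem exists_dvd_quot (hp2 : p ≠ 2) {x y : 𝓞 K} (hy : ¬ (hζ.toInteger - 1) ∣ y) (a : 𝓞 K → 𝓞 K)
    (ha : ∀ η ∈ nthRootsFinset p (1 : 𝓞 K), x + η * y = (hζ.toInteger - 1) * a η) :
    ∃ η₀ ∈ nthRootsFinset p (1 : 𝓞 K), (hζ.toInteger - 1) ∣ a η₀ := by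
  classical
  let I : Ideal (𝓞 K) := Ideal.span {hζ.toInteger - 1}
  let f : (nthRootsFinset p (1 : 𝓞 K)) → (𝓞 K ⧸ I) := fun η => Ideal.Quotient.mk I (a η)
  have hfin : Finite (𝓞 K ⧸ I) := hζ.finite_quotient_span_sub_one'
  have hinj : Function.Injective f := by
    intro η₁ η₂ h
    have h' : a η₁ - a η₂ ∈ I := by
      rw [← Ideal.Quotient.eq]; exact h
    rw [Ideal.mem_span_singleton] at h'
    exact Subtype.ext (eq_of_dvd_sub hζ hy a ha η₁.2 η₂.2 h')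
  have hcard : Nat.card (𝓞 K ⧸ I) ≤ Nat.card (nthRootsFinset p (1 : 𝓞 K)) := by
    rw [hζ.card_quotient_toInteger_sub_one, hζ.norm_toInteger_sub_one_of_prime_ne_two' hp2,
      Nat.card_eq_fintype_card, Fintype.card_coe,
      hζ.toInteger_isPrimitiveRoot.card_nthRootsFinset]
    simp
  obtain ⟨η₀, hη₀⟩ := (hinj.bijective_of_nat_card_le hcard).2 0
  refine ⟨η₀.1, η₀.2, ?_⟩
  have : Ideal.Quotient.mk I (a η₀) = 0 := hη₀
  rwa [Ideal.Quotient.eq_zero_iff_mem, Ideal.mem_span_singleton] at this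

/-- the quotients `(x + η y)/π` are pairwise coprime. -/
theorem isCoprime_quot {x y : 𝓞 K} (hxy : IsCoprime x y) (a : 𝓞 K → 𝓞 K)
    (ha : ∀ η ∈ nthRootsFinset p (1 : 𝓞 K), x + η * y = (hζ.toInteger - 1) * a η)
    {η₁ η₂ : 𝓞 K} (h₁ : η₁ ∈ nthRootsFinset p (1 : 𝓞 K)) (h₂ : η₂ ∈ nthRootsFinset p (1 : 𝓞 K))
    (hne : η₁ ≠ η₂) : IsCoprime (a η₁) (a η₂) := by
  have hπ : Prime (hζ.toInteger - 1) := hζ.zeta_sub_one_prime'
  obtain ⟨u, hu⟩ :=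
    hζ.toInteger_isPrimitiveRoot.nthRootsFinset_pairwise_associated_sub_one_sub_of_prime hp.out
      h₁ h₂ hne
  obtain ⟨r, s, hrs⟩ := hxy
  have e1 := ha η₁ h₁
  have e2 := ha η₂ h₂
  -- u * y = a η₁ - a η₂
  have hy : (u : 𝓞 K) * y = a η₁ - a η₂ := by
    apply mul_left_cancel₀ hπ.ne_zero
    calc (hζ.toInteger - 1) * (u * y) = (η₁ - η₂) * y := by rw [← hu]; ring
      _ = (x + η₁ * y) - (x + η₂ * y) := by ring
      _ = (hζ.toInteger - 1) * (a η₁ - a η₂) := by rw [e1, e2]; ring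
  -- u * x = η₁ * a η₂ - η₂ * a η₁
  have hx : (u : 𝓞 K) * x = η₁ * a η₂ - η₂ * a η₁ := by
    apply mul_left_cancel₀ hπ.ne_zero
    calc (hζ.toInteger - 1) * (u * x) = (η₁ - η₂) * x := by rw [← hu]; ring
      _ = η₁ * (x + η₂ * y) - η₂ * (x + η₁ * y) := by ring
      _ = (hζ.toInteger - 1) * (η₁ * a η₂ - η₂ * a η₁) := by rw [e1, e2]; ring
  refine ⟨(u⁻¹ : (𝓞 K)ˣ) * (s - r * η₂), (u⁻¹ : (𝓞 K)ˣ) * (r * η₁ - s), ?_⟩
  have : (u⁻¹ : (𝓞 K)ˣ) * (s - r * η₂) * a η₁ + (u⁻¹ : (𝓞 K)ˣ) * (r * η₁ - s) * a η₂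
      = (u⁻¹ : (𝓞 K)ˣ) * (r * (η₁ * a η₂ - η₂ * a η₁) + s * (a η₁ - a η₂)) := by ring
  rw [this, ← hx, ← hy]
  have : r * ((u : 𝓞 K) * x) + s * ((u : 𝓞 K) * y) = (u : 𝓞 K) * (r * x + s * y) := by ring
  rw [this, hrs, mul_one]
  simp

/-- the product of the quotients. -/
theorem prod_quot {x y z : 𝓞 K} {ε : (𝓞 K)ˣ} {n : ℕ} (hp2 : p ≠ 2) (a : 𝓞 K → 𝓞 K)
    (ha : ∀ η ∈ nthRootsFinset p (1 : 𝓞 K), x + η * y = (hζ.toInteger - 1) * a η)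
    (H : x ^ p + y ^ p = ε * ((hζ.toInteger - 1) ^ (n + 1) * z) ^ p) :
    ∏ η ∈ nthRootsFinset p (1 : 𝓞 K), a η = ε * ((hζ.toInteger - 1) ^ n * z) ^ p := by
  have hπ : Prime (hζ.toInteger - 1) := hζ.zeta_sub_one_prime'
  have hodd : Odd p := hp.out.odd_of_ne_two hp2
  have h1 := hζ.toInteger_isPrimitiveRoot.pow_add_pow_eq_prod_add_mul x y hodd
  rw [H, Finset.prod_congr rfl ha, Finset.prod_mul_distrib, Finset.prod_const,
    hζ.toInteger_isPrimitiveRoot.card_nthRootsFinset] at h1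
  apply mul_left_cancel₀ (pow_ne_zero p hπ.ne_zero)
  rw [← h1]
  generalize hζ.toInteger - 1 = π
  ring

/-- each quotient is a `p`-th power up to a unit. -/
theorem exists_associated_pow_quot [IsPrincipalIdealRing (𝓞 K)] {x y : 𝓞 K}
    (hxy : IsCoprime x y) (a : 𝓞 K → 𝓞 K)
    (ha : ∀ η ∈ nthRootsFinset p (1 : 𝓞 K), x + η * y = (hζ.toInteger - 1) * a η)
    {w : 𝓞 K} {ε : (𝓞 K)ˣ}
    (hprod : ∏ η ∈ nthRootsFinset p (1 : 𝓞 K), a η = ε * w ^ p)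
    {η : 𝓞 K} (hη : η ∈ nthRootsFinset p (1 : 𝓞 K)) : ∃ d, Associated (d ^ p) (a η) := by
  classical
  rw [← Finset.mul_prod_erase _ a hη] at hprod
  refine exists_associated_pow_of_associated_pow_mul (c := w)
    (IsCoprime.prod_right fun η' hη' => isCoprime_quot hζ hxy a ha hη
      (Finset.mem_of_mem_erase hη') (Finset.ne_of_mem_erase hη').symm) ?_
  exact ⟨ε, by rw [hprod]; ring⟩

/-- The generalized Fermat equation with parameter `n`. -/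
def Sol (hζ : IsPrimitiveRoot ζ p) (n : ℕ) : Prop :=
  ∃ (x y z : 𝓞 K) (ε : (𝓞 K)ˣ), IsCoprime x y ∧ ¬ (hζ.toInteger - 1) ∣ y ∧
    ¬ (hζ.toInteger - 1) ∣ z ∧ x ^ p + y ^ p = ε * ((hζ.toInteger - 1) ^ n * z) ^ p

theorem descent (hp2 : p ≠ 2) [IsPrincipalIdealRing (𝓞 K)]
    (hK : ∀ (u : (𝓞 K)ˣ) (n : ℤ), (p : 𝓞 K) ∣ (u : 𝓞 K) - n → ∃ v : (𝓞 K)ˣ, u = v ^ p)
    {n : ℕ} (h : Sol hζ (n + 1)) : ∃ k, k < n ∧ Sol hζ (k + 1) := by
  classical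
  obtain ⟨x, y, z, ε, hxy, hy, hz, H⟩ := h
  have hπ : Prime (hζ.toInteger - 1) := hζ.zeta_sub_one_prime'
  have hodd : Odd p := hp.out.odd_of_ne_two hp2
  have hp3 : 3 ≤ p := by
    have := hp.out.two_le
    omega
  have hprod0 := hζ.toInteger_isPrimitiveRoot.pow_add_pow_eq_prod_add_mul x y hodd
  have hdvd : (hζ.toInteger - 1) ∣ ∏ η ∈ nthRootsFinset p (1 : 𝓞 K), (x + η * y) := by
    rw [← hprod0, H]
    refine Dvd.dvd.mul_left (dvd_pow (Dvd.dvd.mul_right ?_ _) hp.out.ne_zero) _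
    exact dvd_pow_self _ (Nat.succ_ne_zero n)
  have hall := dvd_all_of_dvd_prod hζ hdvd
  choose! a ha using hall
  obtain ⟨η₀, hη₀, hη₀dvd⟩ := exists_dvd_quot hζ hp2 hy a ha
  have hnot : ∀ η ∈ nthRootsFinset p (1 : 𝓞 K), η ≠ η₀ → ¬ (hζ.toInteger - 1) ∣ a η :=
    fun η hη hne hd => hne (eq_of_dvd_sub hζ hy a ha hη hη₀ (dvd_sub hd hη₀dvd))
  have hprod := prod_quot hζ hp2 a ha H
  -- two more roots of unity
  have hcard : 1 < ((nthRootsFinset p (1 : 𝓞 K)).erase η₀).card := by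
    rw [Finset.card_erase_of_mem hη₀, hζ.toInteger_isPrimitiveRoot.card_nthRootsFinset]
    omega
  obtain ⟨η₁, hη₁', η₂, hη₂', h12⟩ := Finset.one_lt_card.1 hcard
  have hη₁ := Finset.mem_of_mem_erase hη₁'
  have hη₂ := Finset.mem_of_mem_erase hη₂'
  have h10 := Finset.ne_of_mem_erase hη₁'
  have h20 := Finset.ne_of_mem_erase hη₂'
  -- p-th powers
  obtain ⟨d₀, u₀, hd₀⟩ := exists_associated_pow_quot hζ hxy a ha hprod hη₀
  obtain ⟨ρ₁, u₁, hρ₁⟩ := exists_associated_pow_quot hζ hxy a ha hprod hη₁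
  obtain ⟨ρ₂, u₂, hρ₂⟩ := exists_associated_pow_quot hζ hxy a ha hprod hη₂
  -- `z ≠ 0`
  have hz0 : z ≠ 0 := fun h0 => hz (h0 ▸ dvd_zero _)
  have ha₀ : a η₀ ≠ 0 := by
    intro h0
    have : ∏ η ∈ nthRootsFinset p (1 : 𝓞 K), a η = 0 := Finset.prod_eq_zero hη₀ h0
    rw [hprod] at this
    have h2 : ((hζ.toInteger - 1) ^ n * z) ^ p = 0 := by
      rcases mul_eq_zero.1 this with h | h
      · exact absurd h ε.ne_zero
      · exact h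
    have h3 := pow_eq_zero_iff (hp.out.ne_zero) |>.1 h2
    rcases mul_eq_zero.1 h3 with h | h
    · exact pow_ne_zero n hπ.ne_zero h
    · exact hz0 h
  have hd₀ne : d₀ ≠ 0 := by
    intro h0
    apply ha₀
    rw [← hd₀, h0, zero_pow hp.out.ne_zero, zero_mul]
  have hπd₀ : (hζ.toInteger - 1) ∣ d₀ := by
    have h1 : (hζ.toInteger - 1) ∣ d₀ ^ p * u₀ := hd₀ ▸ hη₀dvd
    exact hπ.dvd_of_dvd_pow ((IsUnit.dvd_mul_right u₀.isUnit).1 h1)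
  obtain ⟨ρ₀, hρ₀eq, hρ₀⟩ :=
    (FiniteMultiplicity.of_not_isUnit hπ.not_isUnit hd₀ne).exists_eq_pow_mul_and_not_dvd
  generalize multiplicity (hζ.toInteger - 1) d₀ = k at hρ₀eq
  have hk1 : 1 ≤ k := by
    by_contra hlt
    have : k = 0 := by omega
    rw [this, pow_zero, one_mul] at hρ₀eq
    exact hρ₀ (hρ₀eq ▸ hπd₀)
  have hkn : k ≤ n := by
    by_contra hlt
    rw [not_le] at hlt
    have h1 : (hζ.toInteger - 1) ^ (n * p + 1) ∣ ε * ((hζ.toInteger - 1) ^ n * z) ^ p := by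
      rw [← hprod, ← Finset.mul_prod_erase _ a hη₀, ← hd₀, hρ₀eq]
      have : n * p + 1 ≤ k * p := by nlinarith
      refine Dvd.dvd.mul_right (Dvd.dvd.mul_right ?_ _) _
      rw [mul_pow, ← pow_mul]
      exact Dvd.dvd.mul_right (pow_dvd_pow _ this) _
    have h2 : ε * ((hζ.toInteger - 1) ^ n * z) ^ p
        = (hζ.toInteger - 1) ^ (n * p) * (ε * z ^ p) := by
      rw [mul_pow, ← pow_mul]; ring
    rw [h2, pow_succ, mul_dvd_mul_iff_left (pow_ne_zero _ hπ.ne_zero)] at h1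
    have h3 := (IsUnit.dvd_mul_left ε.isUnit).1 h1
    exact hz (hπ.dvd_of_dvd_pow h3)
  -- the units relating differences of roots of unity with `ζ - 1`
  have hpair :=
    hζ.toInteger_isPrimitiveRoot.nthRootsFinset_pairwise_associated_sub_one_sub_of_prime hp.out
  obtain ⟨w₁₂, hw₁₂⟩ := hpair hη₁ hη₂ h12
  obtain ⟨w₂₀, hw₂₀⟩ := hpair hη₂ hη₀ h20
  obtain ⟨w₀₁, hw₀₁⟩ := hpair hη₀ hη₁ h10.symm
  have e0 := ha η₀ hη₀
  have e1 := ha η₁ hη₁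
  have e2 := ha η₂ hη₂
  have hrel : (w₁₂ : 𝓞 K) * a η₀ + w₂₀ * a η₁ + w₀₁ * a η₂ = 0 := by
    apply mul_left_cancel₀ (pow_ne_zero 2 hπ.ne_zero)
    calc (hζ.toInteger - 1) ^ 2 * ((w₁₂ : 𝓞 K) * a η₀ + w₂₀ * a η₁ + w₀₁ * a η₂)
        = ((hζ.toInteger - 1) * w₁₂) * ((hζ.toInteger - 1) * a η₀)
          + ((hζ.toInteger - 1) * w₂₀) * ((hζ.toInteger - 1) * a η₁)
          + ((hζ.toInteger - 1) * w₀₁) * ((hζ.toInteger - 1) * a η₂) := by ring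
      _ = (η₁ - η₂) * (x + η₀ * y) + (η₂ - η₀) * (x + η₁ * y) + (η₀ - η₁) * (x + η₂ * y) := by
          rw [hw₁₂, hw₂₀, hw₀₁, e0, e1, e2]
      _ = (hζ.toInteger - 1) ^ 2 * 0 := by ring
  -- the new equation
  set ηK : (𝓞 K)ˣ := (w₂₀ * u₁)⁻¹ * (w₀₁ * u₂) with hηK
  set ε' : (𝓞 K)ˣ := -((w₂₀ * u₁)⁻¹ * (w₁₂ * u₀)) with hε'
  have hnew : ρ₁ ^ p + ηK * ρ₂ ^ p = ε' * ((hζ.toInteger - 1) ^ k * ρ₀) ^ p := by
    have h1 : ((w₂₀ * u₁ : (𝓞 K)ˣ) : 𝓞 K) * (ρ₁ ^ p + ηK * ρ₂ ^ p)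
        = ((w₂₀ * u₁ : (𝓞 K)ˣ) : 𝓞 K) * (ε' * ((hζ.toInteger - 1) ^ k * ρ₀) ^ p) := by
      have hA : ((w₂₀ * u₁ : (𝓞 K)ˣ) : 𝓞 K) * (ηK : 𝓞 K) = ((w₀₁ * u₂ : (𝓞 K)ˣ) : 𝓞 K) := by
        rw [← Units.val_mul, hηK, mul_inv_cancel_left]
      have hB : ((w₂₀ * u₁ : (𝓞 K)ˣ) : 𝓞 K) * (ε' : 𝓞 K) = -((w₁₂ * u₀ : (𝓞 K)ˣ) : 𝓞 K) := by
        rw [← Units.val_mul, hε', ← Units.val_neg, mul_neg, mul_inv_cancel_left]
      rw [mul_add, ← mul_assoc, hA, ← mul_assoc, hB, ← hρ₀eq]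
      push_cast
      have : (w₂₀ : 𝓞 K) * u₁ * ρ₁ ^ p + w₀₁ * u₂ * ρ₂ ^ p + w₁₂ * u₀ * d₀ ^ p = 0 := by
        rw [← hrel, ← hd₀, ← hρ₁, ← hρ₂]; ring
      linear_combination this
    exact mul_left_cancel₀ (Units.ne_zero _) h1
  -- `ζ - 1` does not divide `ρ₁`, `ρ₂`
  have hρ₂π : ¬ (hζ.toInteger - 1) ∣ ρ₂ := by
    intro hd
    apply hnot η₂ hη₂ h20
    rw [← hρ₂]
    exact Dvd.dvd.mul_right (dvd_pow hd hp.out.ne_zero) _
  -- `p` divides `(π ^ k ρ₀) ^ p`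
  have hpπ : (p : 𝓞 K) ∣ ((hζ.toInteger - 1) ^ k * ρ₀) ^ p := by
    have h1 : (p : 𝓞 K) ∣ (hζ.toInteger - 1) ^ (p - 1) :=
      (IsCyclotomicExtension.Rat.associated_zeta_sub_one_pow_prime p hζ).symm.dvd
    refine h1.trans ?_
    rw [mul_pow, ← pow_mul]
    refine Dvd.dvd.mul_right (pow_dvd_pow _ ?_) _
    have : 1 * p ≤ k * p := Nat.mul_le_mul_right p hk1
    omega
  have hππ : (hζ.toInteger - 1) ∣ (p : 𝓞 K) := by
    have h1 : (p : 𝓞 K) = ((p : ℤ) : 𝓞 K) := by simp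
    rw [h1, IsCyclotomicExtension.Rat.zeta_sub_one_dvd_intCast_iff' p hζ]
  obtain ⟨m₁, hm₁⟩ := pow_prime_congr_int (p := p) ρ₁
  obtain ⟨m₂, hm₂⟩ := pow_prime_congr_int (p := p) ρ₂
  have hm12 : (p : 𝓞 K) ∣ (m₁ : 𝓞 K) + ηK * m₂ := by
    have : (m₁ : 𝓞 K) + ηK * m₂
        = ε' * ((hζ.toInteger - 1) ^ k * ρ₀) ^ p - (ρ₁ ^ p - m₁) - ηK * (ρ₂ ^ p - m₂) := by
      rw [← hnew]; ring
    rw [this]
    exact dvd_sub (dvd_sub (Dvd.dvd.mul_left hpπ _) hm₁) (Dvd.dvd.mul_left hm₂ _)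
  have hpm₂ : ¬ (p : ℤ) ∣ m₂ := by
    intro hd
    apply hρ₂π
    apply hπ.dvd_of_dvd_pow (n := p)
    have h1 : (hζ.toInteger - 1) ∣ (m₂ : 𝓞 K) :=
      (IsCyclotomicExtension.Rat.zeta_sub_one_dvd_intCast_iff' p hζ).2 hd
    have h2 : (hζ.toInteger - 1) ∣ ρ₂ ^ p - m₂ := hππ.trans hm₂
    have : ρ₂ ^ p = (ρ₂ ^ p - m₂) + m₂ := by ring
    rw [this]
    exact dvd_add h2 h1
  obtain ⟨s, t, hst⟩ : IsCoprime (p : ℤ) m₂ :=
    (Prime.coprime_iff_not_dvd (Nat.prime_iff_prime_int.1 hp.out)).2 hpm₂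
  have hηKcong : (p : 𝓞 K) ∣ (ηK : 𝓞 K) - ((-(t * m₁) : ℤ) : 𝓞 K) := by
    have h1 : ((s * p + t * m₂ : ℤ) : 𝓞 K) = 1 := by rw [hst]; simp
    have : (ηK : 𝓞 K) - ((-(t * m₁) : ℤ) : 𝓞 K)
        = (p : 𝓞 K) * (ηK * s) + t * ((m₁ : 𝓞 K) + ηK * m₂) := by
      have : (ηK : 𝓞 K) = ηK * ((s * p + t * m₂ : ℤ) : 𝓞 K) := by rw [h1, mul_one]
      conv_lhs => rw [this]
      push_cast; ring
    rw [this]
    exact dvd_add (dvd_mul_right _ _) (Dvd.dvd.mul_left hm12 _)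
  obtain ⟨v, hv⟩ := hK ηK _ hηKcong
  -- the new solution
  obtain ⟨k', rfl⟩ : ∃ k', k = k' + 1 := ⟨k - 1, by omega⟩
  refine ⟨k', by omega, ρ₁, v * ρ₂, ρ₀, ε', ?_, ?_, hρ₀, ?_⟩
  · have hc := isCoprime_quot hζ hxy a ha hη₁ hη₂ h12
    rw [← hρ₁, ← hρ₂] at hc
    have hc2 : IsCoprime (ρ₁ ^ p) (ρ₂ ^ p) :=
      (isCoprime_mul_unit_right_left u₁.isUnit _ _).1
        ((isCoprime_mul_unit_right_right u₂.isUnit _ _).1 hc)
    have hc3 : IsCoprime ρ₁ ρ₂ :=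
      (IsCoprime.pow_iff hp.out.pos hp.out.pos).1 hc2
    exact (isCoprime_mul_unit_left_right v.isUnit _ _).2 hc3
  · intro hd
    exact hρ₂π ((IsUnit.dvd_mul_left v.isUnit).1 hd)
  · rw [mul_pow, ← Units.val_pow_eq_pow_val, ← hv]
    exact hnew

theorem not_sol (hp2 : p ≠ 2) [IsPrincipalIdealRing (𝓞 K)]
    (hK : ∀ (u : (𝓞 K)ˣ) (n : ℤ), (p : 𝓞 K) ∣ (u : 𝓞 K) - n → ∃ v : (𝓞 K)ˣ, u = v ^ p)
    (n : ℕ) : ¬ Sol hζ (n + 1) := by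
  induction n using Nat.strong_induction_on with
  | _ n ih =>
    intro h
    obtain ⟨k, hk, hs⟩ := descent hζ hp2 hK h
    exact ih k hk hs

end descent

/-- Case II of Fermat's Last Theorem for a prime `p` such that `ℤ[ζ_p]` is a PID and Kummer's
lemma holds. -/
theorem caseII {p : ℕ} [hp : Fact p.Prime] (hp5 : 5 ≤ p) (K : Type*) [Field K] [NumberField K]
    [IsCyclotomicExtension {p} ℚ K] [IsPrincipalIdealRing (𝓞 K)]
    (hK : ∀ (u : (𝓞 K)ˣ) (n : ℤ), (p : 𝓞 K) ∣ (u : 𝓞 K) - n → ∃ v : (𝓞 K)ˣ, u = v ^ p)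
    {a b c : ℤ} (hab : IsCoprime a b) (hc : c ≠ 0) (hpc : (p : ℤ) ∣ c)
    (h : a ^ p + b ^ p = c ^ p) : False := by
  have hζ := IsCyclotomicExtension.zeta_spec p ℚ K
  have hp2 : p ≠ 2 := by omega
  have hpZ : Prime (p : ℤ) := Nat.prime_iff_prime_int.1 hp.out
  -- `p ∤ b`
  have hpb : ¬ (p : ℤ) ∣ b := by
    intro hb
    have h1 : (p : ℤ) ∣ a ^ p := by
      have : a ^ p = c ^ p - b ^ p := by rw [← h]; ring
      rw [this]
      exact dvd_sub (dvd_pow hpc hp.out.ne_zero) (dvd_pow hb hp.out.ne_zero)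
    have h2 := hpZ.dvd_of_dvd_pow h1
    exact hpZ.not_isUnit (hab.isUnit_of_dvd' h2 hb)
  -- `c = p ^ k * c'`
  have hfin : FiniteMultiplicity (p : ℤ) c :=
    FiniteMultiplicity.of_not_isUnit hpZ.not_isUnit hc
  obtain ⟨c', hc'eq, hc'⟩ := hfin.exists_eq_pow_mul_and_not_dvd
  generalize multiplicity (p : ℤ) c = k at hc'eq
  have hk1 : 1 ≤ k := by
    by_contra hlt
    have : k = 0 := by omega
    rw [this, pow_zero, one_mul] at hc'eq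
    exact hc' (hc'eq ▸ hpc)
  obtain ⟨u, hu⟩ := IsCyclotomicExtension.Rat.associated_zeta_sub_one_pow_prime p hζ
  obtain ⟨n, hn⟩ : ∃ n, (p - 1) * k = n + 1 := ⟨(p - 1) * k - 1, by
    have : 1 ≤ (p - 1) * k := Nat.mul_pos (by omega) hk1
    omega⟩
  refine not_sol hζ hp2 hK n ⟨(a : 𝓞 K), (b : 𝓞 K), (c' : 𝓞 K), (u ^ k) ^ p, ?_, ?_, ?_, ?_⟩
  · exact IsCoprime.intCast hab
  · rwa [IsCyclotomicExtension.Rat.zeta_sub_one_dvd_intCast_iff' p hζ]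
  · rwa [IsCyclotomicExtension.Rat.zeta_sub_one_dvd_intCast_iff' p hζ]
  · have h1 : ((a : 𝓞 K)) ^ p + (b : 𝓞 K) ^ p = (c : 𝓞 K) ^ p := by exact_mod_cast congrArg (Int.cast : ℤ → 𝓞 K) h
    rw [h1, hc'eq, ← hn]
    push_cast
    rw [← hu]
    ring

end Fermat.Agent.S11
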