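import Mathlib
import Fermat.Prelude.Def_FLTPrelim_FreyPackage
import Fermat.Agent.S11.CaseII

set_option autoImplicit false

namespace Fermat.Agent.S11

open NumberField

/-- No Frey package with exponent `p`, provided case I holds for `p`, the `p`-th cyclotomic ring
of integers is a PID, and Kummer's lemma holds for `p`. -/
theorem freyPackage_false_of {p : ℕ} [hp : Fact p.Prime] (hp5 : 5 ≤ p)
    (hI : ∀ {a b c : ℤ}, IsCoprime a b → a ^ p + b ^ p = c ^ p → (p : ℤ) ∣ a * b * c)
    (K : Type*) [Field K] [NumberField K] [IsCyclotomicExtension {p} ℚ K]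
    [IsPrincipalIdealRing (𝓞 K)]
    (hK : ∀ (u : (𝓞 K)ˣ) (n : ℤ), (p : 𝓞 K) ∣ (u : 𝓞 K) - n → ∃ v : (𝓞 K)ˣ, u = v ^ p)
    (P : FreyPackage) (hP : P.p = p) : False := by
  have hpZ : Prime (p : ℤ) := Nat.prime_iff_prime_int.1 hp.out
  have hodd : Odd p := hp.out.odd_of_ne_two (by omega)
  have hab : IsCoprime P.a P.b := by
    rw [Int.isCoprime_iff_gcd_eq_one]
    have := P.hgcdab
    rw [← Int.coe_gcd] at this
    exact_mod_cast this
  have hac : IsCoprime P.a P.c := by
    rw [Int.isCoprime_iff_gcd_eq_one]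
    have := P.hgcdac
    rw [← Int.coe_gcd] at this
    exact_mod_cast this
  have hbc : IsCoprime P.b P.c := by
    rw [Int.isCoprime_iff_gcd_eq_one]
    have := P.hgcdbc
    rw [← Int.coe_gcd] at this
    exact_mod_cast this
  have hF : P.a ^ p + P.b ^ p = P.c ^ p := by
    have := P.hFLT
    rwa [hP] at this
  have hdvd := hI hab hF
  rcases hpZ.dvd_or_dvd hdvd with h | h
  · rcases hpZ.dvd_or_dvd h with h | h
    · -- `p ∣ a`
      refine caseII hp5 K hK (a := P.c) (b := -P.b) (c := P.a) hbc.symm.neg_right P.ha0 h ?_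
      rw [hodd.neg_pow, ← hF]; ring
    · -- `p ∣ b`
      refine caseII hp5 K hK (a := P.c) (b := -P.a) (c := P.b) hac.symm.neg_right P.hb0 h ?_
      rw [hodd.neg_pow, ← hF]; ring
  · exact caseII hp5 K hK hab P.hc0 h hF

end Fermat.Agent.S11
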