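import Mathlib

set_option autoImplicit false

namespace Fermat.Agent.S11

open NumberField NumberField.Units

section ModPow

variable (E : Type*) [CommGroup E] (p : ℕ)

/-- The quotient of `E` by its `p`-th powers, written additively. -/
abbrev ModPow : Type _ := Additive (E ⧸ (powMonoidHom p : E →* E).range)

variable {E} in
/-- The class of an element modulo `p`-th powers. -/
def modPowCl (x : E) : ModPow E p :=
  Additive.ofMul (QuotientGroup.mk' (powMonoidHom p : E →* E).range x)

variable {E p}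

theorem modPowCl_surjective : Function.Surjective (modPowCl (E := E) p) := by
  intro x
  obtain ⟨y, hy⟩ := QuotientGroup.mk'_surjective (powMonoidHom p : E →* E).range
    (Additive.toMul x)
  exact ⟨y, by unfold modPowCl; rw [hy]; rfl⟩

theorem modPowCl_mul (x y : E) : modPowCl p (x * y) = modPowCl p x + modPowCl p y := by
  simp only [modPowCl, map_mul, ofMul_mul]

theorem modPowCl_pow (x : E) (k : ℕ) : modPowCl p (x ^ k) = k • modPowCl p x := by
  simp only [modPowCl, map_pow, ofMul_pow]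

theorem modPowCl_zpow (x : E) (k : ℤ) : modPowCl p (x ^ k) = k • modPowCl p x := by
  simp only [modPowCl, map_zpow, ofMul_zpow]

theorem modPowCl_prod {κ : Type*} (s : Finset κ) (f : κ → E) :
    modPowCl p (∏ i ∈ s, f i) = ∑ i ∈ s, modPowCl p (f i) := by
  simp only [modPowCl, map_prod, ofMul_prod]

theorem modPowCl_eq_zero (x : E) : modPowCl p x = 0 ↔ ∃ v : E, v ^ p = x := by
  unfold modPowCl
  rw [show (0 : ModPow E p) = Additive.ofMul 1 from rfl, Additive.ofMul.apply_eq_iff_eq,
    QuotientGroup.mk'_apply, QuotientGroup.eq_one_iff]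
  exact MonoidHom.mem_range

theorem modPow_nsmul_eq_zero (x : ModPow E p) : p • x = 0 := by
  obtain ⟨y, rfl⟩ := modPowCl_surjective x
  rw [← modPowCl_pow, modPowCl_eq_zero]
  exact ⟨y, rfl⟩

instance modPowModule : Module (ZMod p) (ModPow E p) :=
  AddCommGroup.zmodModule modPow_nsmul_eq_zero

end ModPow

/-- Generic statement: if a commutative group `E` is generated modulo `p`-th powers by a
family indexed by `ι` with `card ι ≤ n`, then any family of `n` elements that is
independent modulo `p`-th powers spans `E` modulo `p`-th powers. -/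
theorem span_of_indep_mod_pow {E : Type*} [CommGroup E] {p : ℕ} [hp : Fact p.Prime]
    {ι : Type*} [Fintype ι] (b : ι → E)
    (hb : ∀ u : E, ∃ (a : ι → ℤ) (v : E), u = (∏ i, b i ^ a i) * v ^ p)
    {n : ℕ} (hn : Fintype.card ι ≤ n) (w : Fin n → E)
    (hw : ∀ e : Fin n → ℕ, (∃ v : E, ∏ i, w i ^ e i = v ^ p) → ∀ i, p ∣ e i) (u : E) :
    ∃ (e : Fin n → ℕ) (v : E), u = (∏ i, w i ^ e i) * v ^ p := by
  classical
  have cl_ppow : ∀ v : E, modPowCl p (v ^ p) = 0 := fun v => (modPowCl_eq_zero _).mpr ⟨v, rfl⟩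
  -- the family `cl ∘ b` spans
  have hspan : Submodule.span (ZMod p) (Set.range (modPowCl p ∘ b)) =
      (⊤ : Submodule (ZMod p) (ModPow E p)) := by
    rw [eq_top_iff]
    intro x _
    obtain ⟨y, rfl⟩ := modPowCl_surjective x
    obtain ⟨a, v, hav⟩ := hb y
    rw [hav, modPowCl_mul, cl_ppow, add_zero, modPowCl_prod]
    refine Submodule.sum_mem _ fun i _ => ?_
    rw [modPowCl_zpow, ← Int.cast_smul_eq_zsmul (ZMod p)]
    exact Submodule.smul_mem _ _ (Submodule.subset_span ⟨i, rfl⟩)
  have : Module.Finite (ZMod p) (ModPow E p) :=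
    Module.Finite.of_fg_top (by rw [← hspan]; exact Submodule.fg_span (Set.finite_range _))
  -- independence of `cl ∘ w`
  have hli : LinearIndependent (ZMod p) (modPowCl p ∘ w) := by
    rw [Fintype.linearIndependent_iff]
    intro g hg i
    have h1 : modPowCl p (∏ i, w i ^ (g i).val) = 0 := by
      rw [modPowCl_prod, ← hg]
      refine Finset.sum_congr rfl fun j _ => ?_
      rw [modPowCl_pow, ← Nat.cast_smul_eq_nsmul (ZMod p), ZMod.natCast_zmod_val]
      rfl
    obtain ⟨v, hv⟩ := (modPowCl_eq_zero _).mp h1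
    have h2 := hw (fun i => (g i).val) ⟨v, hv.symm⟩ i
    rw [← ZMod.natCast_zmod_val (g i)]
    exact (ZMod.natCast_eq_zero_iff _ _).mpr h2
  have hfr : Module.finrank (ZMod p) (ModPow E p) ≤ n := by
    have h1 := finrank_range_le_card (R := ZMod p) (modPowCl p ∘ b)
    rw [Set.finrank, hspan, finrank_top] at h1
    exact h1.trans hn
  have hcard : Fintype.card (Fin n) = Module.finrank (ZMod p) (ModPow E p) := by
    apply le_antisymm hli.fintype_card_le_finrank
    rw [Fintype.card_fin]; exact hfr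
  have hspanw := hli.span_eq_top_of_card_eq_finrank' hcard
  have hu : modPowCl p u ∈ Submodule.span (ZMod p) (Set.range (modPowCl p ∘ w)) := by
    rw [hspanw]; trivial
  obtain ⟨c, hc⟩ := (Submodule.mem_span_range_iff_exists_fun (ZMod p)).mp hu
  have h3 : modPowCl p (u * (∏ i, w i ^ (c i).val)⁻¹) = 0 := by
    rw [modPowCl_mul, ← zpow_neg_one, modPowCl_zpow, modPowCl_prod, ← hc, neg_one_smul,
      ← sub_eq_add_neg, sub_eq_zero]
    refine Finset.sum_congr rfl fun j _ => ?_
    rw [modPowCl_pow, ← Nat.cast_smul_eq_nsmul (ZMod p), ZMod.natCast_zmod_val]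
    rfl
  obtain ⟨v, hv⟩ := (modPowCl_eq_zero _).mp h3
  exact ⟨fun i => (c i).val, v, by rw [hv, mul_comm u _, mul_inv_cancel_left]⟩

/-- The unit rank plus one of the `p`-th cyclotomic field is `(p - 1) / 2`. -/
theorem rank_add_one_cyclotomic {p : ℕ} [hpf : Fact p.Prime] (hp : p ≠ 2) (K : Type*) [Field K]
    [NumberField K] [IsCyclotomicExtension {p} ℚ K] : rank K + 1 = (p - 1) / 2 := by
  have h2 : 2 < p := lt_of_le_of_ne hpf.out.two_le (Ne.symm hp)
  have : NeZero p := ⟨hpf.out.ne_zero⟩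
  have hcard : Fintype.card (InfinitePlace K) = (p - 1) / 2 := by
    rw [InfinitePlace.card_eq_nrRealPlaces_add_nrComplexPlaces,
      IsCyclotomicExtension.Rat.nrRealPlaces_eq_zero K h2,
      IsCyclotomicExtension.Rat.nrComplexPlaces_eq_totient_div_two p K,
      Nat.totient_prime hpf.out, zero_add]
  have hpos : 0 < Fintype.card (InfinitePlace K) := Fintype.card_pos
  unfold rank
  omega

/-- **Dirichlet part of Kummer's lemma**: in the `p`-th cyclotomic field, any family of
`(p - 1) / 2` units which is independent modulo `p`-th powers generates the unit group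
modulo `p`-th powers. -/
theorem units_span {p : ℕ} [hpf : Fact p.Prime] (hp : p ≠ 2) (K : Type*) [Field K]
    [NumberField K] [IsCyclotomicExtension {p} ℚ K] (w : Fin ((p - 1) / 2) → (𝓞 K)ˣ)
    (hw : ∀ e : Fin ((p - 1) / 2) → ℕ, (∃ v : (𝓞 K)ˣ, ∏ i, w i ^ e i = v ^ p) → ∀ i, p ∣ e i) :
    ∀ u : (𝓞 K)ˣ, ∃ (e : Fin ((p - 1) / 2) → ℕ) (v : (𝓞 K)ˣ),
      u = (∏ i, w i ^ e i) * v ^ p := by
  classical
  obtain ⟨g, hg⟩ := IsCyclic.exists_generator (α := torsion K)
  let b : Option (Fin (rank K)) → (𝓞 K)ˣ := fun o => o.elim (g : (𝓞 K)ˣ) (fundSystem K)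
  have hb : ∀ u : (𝓞 K)ˣ, ∃ (a : Option (Fin (rank K)) → ℤ) (v : (𝓞 K)ˣ),
      u = (∏ i, b i ^ a i) * v ^ p := by
    intro u
    obtain ⟨⟨ζ, e⟩, hu, -⟩ := exist_unique_eq_mul_prod K u
    obtain ⟨m, hm⟩ := Subgroup.mem_zpowers_iff.mp (hg ζ)
    refine ⟨fun o => o.elim m e, 1, ?_⟩
    rw [one_pow, mul_one, Fintype.prod_option]
    simp only [b, Option.elim_none, Option.elim_some]
    rw [hu]
    congr 1
    rw [← hm]
    simp
  have hcard : Fintype.card (Option (Fin (rank K))) ≤ (p - 1) / 2 := by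
    rw [Fintype.card_option, Fintype.card_fin, rank_add_one_cyclotomic hp K]
  exact span_of_indep_mod_pow b hb hcard w hw

end Fermat.Agent.S11
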