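import Mathlib
import Fermat.Agent.S11.UnitsSpan

set_option autoImplicit false
set_option linter.unusedSectionVars false

open NumberField Module

namespace Fermat.Agent.S11

namespace KL

/-- `x` is congruent to a rational integer modulo `p`. -/
def IsIntModP (p : ℕ) {R : Type*} [CommRing R] (x : R) : Prop := ∃ n : ℤ, (p : R) ∣ x - n

section general

variable {p : ℕ} {R : Type*} [CommRing R]

lemma IsIntModP.mul {x y : R} (hx : IsIntModP p x) (hy : IsIntModP p y) :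
    IsIntModP p (x * y) := by
  obtain ⟨n, a, ha⟩ := hx
  obtain ⟨m, b, hb⟩ := hy
  refine ⟨n * m, a * y + n * b, ?_⟩
  push_cast
  linear_combination y * ha + (n : R) * hb

lemma pow_congr_leading (π x : R) (m : ℕ) (hm : 1 ≤ m) (n d : ℤ)
    (h : π ^ (m + 1) ∣ x - (n + d * π ^ m)) (a : ℕ) :
    π ^ (m + 1) ∣ x ^ a - ((n : R) ^ a + ((a * n ^ (a - 1) * d : ℤ) : R) * π ^ m) := by
  induction a with
  | zero => simp
  | succ a ih =>
    obtain ⟨s, hs⟩ := ih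
    obtain ⟨t, ht⟩ := h
    have hc : (a * n ^ (a - 1) * d : ℤ) * n = a * n ^ a * d := by
      cases a with
      | zero => simp
      | succ b => simp [pow_succ]; ring
    have hc' : (((a * n ^ (a - 1) * d : ℤ) : R)) * (n : R) = ((a * n ^ a * d : ℤ) : R) := by
      exact_mod_cast congrArg (Int.cast : ℤ → R) hc
    have h2m : π ^ (2 * m) = π ^ (m + 1) * π ^ (m - 1) := by
      rw [← pow_add]; congr 1; omega
    refine ⟨x * s + ((n : R) ^ a + ((a * n ^ (a - 1) * d : ℤ) : R) * π ^ m) * t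
      + ((a * n ^ (a - 1) * d : ℤ) : R) * d * π ^ (m - 1), ?_⟩
    have e1 : x ^ (a + 1) = x * x ^ a := by ring
    simp only [Nat.add_sub_cancel]
    push_cast at hs hc' ⊢
    rw [e1]
    linear_combination x * hs + ((n : R) ^ a + (a : R) * (n : R) ^ (a - 1) * (d : R) * π ^ m) * ht
      + π ^ m * hc' + ((a : R) * (n : R) ^ (a - 1) * (d : R) * (d : R)) * h2m

end general

section arith

variable {p : ℕ} [hp : Fact p.Prime] {K : Type*} [Field K] [NumberField K]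
  [hK : IsCyclotomicExtension {p} ℚ K] {ζ : K} (hζ : IsPrimitiveRoot ζ p)

include hζ in
lemma exists_int_sub_dvd (x : 𝓞 K) : ∃ m : ℤ, (hζ.toInteger - 1) ∣ x - m := by
  have hx : x ∈ Algebra.adjoin ℤ {hζ.toInteger} := by
    rw [IsCyclotomicExtension.Rat.adjoin_singleton_eq_top hζ]; trivial
  rw [Algebra.adjoin_singleton_eq_range_aeval] at hx
  obtain ⟨f, rfl⟩ := hx
  refine ⟨f.eval 1, ?_⟩
  have := Polynomial.sub_dvd_eval_sub (hζ.toInteger) 1 (f.map (algebraMap ℤ (𝓞 K)))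
  simpa [Polynomial.eval_map, Polynomial.aeval_def, Polynomial.eval₂_at_one] using this

include hζ in
lemma p_dvd_pi_pow : (p : 𝓞 K) ∣ (hζ.toInteger - 1) ^ (p - 1) :=
  (IsCyclotomicExtension.Rat.associated_zeta_sub_one_pow_prime p hζ).symm.dvd

include hζ in
lemma pi_pow_dvd_p : (hζ.toInteger - 1) ^ (p - 1) ∣ (p : 𝓞 K) :=
  (IsCyclotomicExtension.Rat.associated_zeta_sub_one_pow_prime p hζ).dvd

include hζ in
lemma pi_dvd_p : (hζ.toInteger - 1) ∣ (p : 𝓞 K) := hζ.toInteger_sub_one_dvd_prime'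

include hζ in
/-- `p`-th powers are congruent to integers mod `p`. -/
lemma isIntModP_pow_p (x : 𝓞 K) : IsIntModP p (x ^ p) := by
  obtain ⟨m, t, ht⟩ := exists_int_sub_dvd hζ x
  obtain ⟨r, hr⟩ := exists_add_pow_prime_eq hp.out (m : 𝓞 K) ((hζ.toInteger - 1) * t)
  obtain ⟨c, hc⟩ := p_dvd_pi_pow hζ
  have hx : x = m + (hζ.toInteger - 1) * t := by rw [← ht]; ring
  refine ⟨m ^ p, (m : 𝓞 K) * ((hζ.toInteger - 1) * t) * r + c * (hζ.toInteger - 1) * t ^ p, ?_⟩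
  have hpp : (hζ.toInteger - 1) ^ p = (hζ.toInteger - 1) ^ (p - 1) * (hζ.toInteger - 1) := by
    rw [← pow_succ, Nat.sub_add_cancel hp.out.one_le]
  rw [hx, hr, mul_pow, hpp, hc]
  push_cast
  ring

include hζ in
lemma not_p_dvd_of_unit_sub (u : (𝓞 K)ˣ) (n : ℤ) (h : (p : 𝓞 K) ∣ (u : 𝓞 K) - n) :
    ¬ (p : ℤ) ∣ n := by
  intro hn
  have h1 : (hζ.toInteger - 1) ∣ (n : 𝓞 K) :=
    (IsCyclotomicExtension.Rat.zeta_sub_one_dvd_intCast_iff' p hζ).2 hn
  have h2 : (hζ.toInteger - 1) ∣ (u : 𝓞 K) := by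
    have := dvd_add ((pi_dvd_p hζ).trans h) h1
    simpa using this
  exact hζ.zeta_sub_one_prime'.not_isUnit (isUnit_of_dvd_unit h2 u.isUnit)

include hζ in
lemma IsIntModP.unit_inv {u : (𝓞 K)ˣ} (h : IsIntModP p (u : 𝓞 K)) :
    IsIntModP p ((u⁻¹ : (𝓞 K)ˣ) : 𝓞 K) := by
  obtain ⟨n, hn⟩ := h
  have hpn := not_p_dvd_of_unit_sub hζ u n hn
  obtain ⟨a, ha⟩ := hn
  have hcop : IsCoprime (n : ℤ) (p : ℤ) := by
    rw [isCoprime_comm, Prime.coprime_iff_not_dvd (Nat.prime_iff_prime_int.1 hp.out)]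
    exact hpn
  obtain ⟨n', s, hs⟩ := hcop
  refine ⟨n', ((u⁻¹ : (𝓞 K)ˣ) : 𝓞 K) * (s - n' * a), ?_⟩
  have hu : (u : 𝓞 K) = n + p * a := by rw [← ha]; ring
  have h1 : ((u⁻¹ : (𝓞 K)ˣ) : 𝓞 K) * (u : 𝓞 K) = 1 := by simp
  have hs' : (n' : 𝓞 K) * n + s * p = 1 := by exact_mod_cast congrArg (Int.cast : ℤ → 𝓞 K) hs
  rw [hu] at h1
  linear_combination (n' : 𝓞 K) * h1 - ((u⁻¹ : (𝓞 K)ˣ) : 𝓞 K) * hs'

include hζ in
lemma step_dvd {m : ℕ} (hm : 1 ≤ m) (hmp : m + 2 ≤ p) (x y : 𝓞 K) (n d n' N : ℤ) (a : ℕ)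
    (h1 : (hζ.toInteger - 1) ^ (m + 1) ∣ x - (n + d * (hζ.toInteger - 1) ^ m))
    (h2 : (hζ.toInteger - 1) ^ (m + 1) ∣ y - n')
    (h3 : (p : 𝓞 K) ∣ x ^ a * y - N)
    (hn : ¬ (p : ℤ) ∣ n) (hd : ¬ (p : ℤ) ∣ d) (hn' : ¬ (p : ℤ) ∣ n') : p ∣ a := by
  set π := hζ.toInteger - 1 with hπ
  have hπprime : Prime π := hζ.zeta_sub_one_prime'
  have hpprime : Prime (p : ℤ) := Nat.prime_iff_prime_int.1 hp.out
  have hdvd_iff : ∀ k : ℤ, π ∣ (k : 𝓞 K) ↔ (p : ℤ) ∣ k := fun k =>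
    IsCyclotomicExtension.Rat.zeta_sub_one_dvd_intCast_iff' p hζ
  have hpow_p : π ^ (m + 1) ∣ (p : 𝓞 K) :=
    (pow_dvd_pow π (by omega)).trans (pi_pow_dvd_p hζ)
  have hπm : π ∣ π ^ m := dvd_pow_self π (by omega)
  have hππ : π ∣ π ^ (m + 1) := dvd_pow_self π (by omega)
  set c : ℤ := a * n ^ (a - 1) * d with hc
  have hL := pow_congr_leading π x m hm n d h1 a
  have h4 : π ^ (m + 1) ∣ ((N - n ^ a * n' : ℤ) : 𝓞 K) - ((c * n' : ℤ) : 𝓞 K) * π ^ m := by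
    obtain ⟨s, hs⟩ := hL
    obtain ⟨t, ht⟩ := h2
    obtain ⟨r, hr⟩ := hpow_p.trans h3
    refine ⟨-r + s * y + ((n : 𝓞 K) ^ a + (c : 𝓞 K) * π ^ m) * t, ?_⟩
    push_cast
    linear_combination (-1 : 𝓞 K) * hr + y * hs + ((n : 𝓞 K) ^ a + (c : 𝓞 K) * π ^ m) * ht
  have h5 : (p : ℤ) ∣ N - n ^ a * n' := by
    rw [← hdvd_iff]
    have := dvd_add (hππ.trans h4) (Dvd.dvd.mul_left hπm ((c * n' : ℤ) : 𝓞 K))
    simpa using this
  have h5' : π ^ (m + 1) ∣ ((N - n ^ a * n' : ℤ) : 𝓞 K) := by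
    obtain ⟨k, hk⟩ := h5
    rw [hk]
    push_cast
    exact Dvd.dvd.mul_right hpow_p _
  have h6 : π ^ (m + 1) ∣ ((c * n' : ℤ) : 𝓞 K) * π ^ m := by
    have := dvd_sub h5' h4
    simpa using this
  have h7 : π ∣ ((c * n' : ℤ) : 𝓞 K) := by
    rw [pow_succ, mul_comm _ (π ^ m)] at h6
    exact (mul_dvd_mul_iff_left (pow_ne_zero m hπprime.ne_zero)).1 h6
  have h8 : (p : ℤ) ∣ c * n' := (hdvd_iff _).1 h7
  have h9 : (p : ℤ) ∣ c := (hpprime.dvd_or_dvd h8).resolve_right hn'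
  have h10 : (p : ℤ) ∣ (a : ℤ) := by
    rw [hc] at h9
    rcases hpprime.dvd_or_dvd h9 with h | h
    · rcases hpprime.dvd_or_dvd h with h | h
      · exact h
      · exact absurd (hpprime.dvd_of_dvd_pow h) hn
    · exact absurd h hd
  exact_mod_cast h10

/-- Certificate data for Kummer's lemma: units `w k` (`k ≤ r`) with strictly increasing
leading exponents `m k`. -/
structure UnitCert (hζ : IsPrimitiveRoot ζ p) (r : ℕ) where
  w : ℕ → (𝓞 K)ˣ
  m : ℕ → ℕ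
  n : ℕ → ℤ
  d : ℕ → ℤ
  one_le_m : ∀ k ≤ r, 1 ≤ m k
  m_lt : ∀ j k, j < k → k ≤ r → m j < m k
  m_le : ∀ k ≤ r, m k + 2 ≤ p
  hn : ∀ k ≤ r, ¬ (p : ℤ) ∣ n k
  hd : ∀ k ≤ r, ¬ (p : ℤ) ∣ d k
  hw : ∀ k ≤ r, (hζ.toInteger - 1) ^ (m k + 1) ∣
    (w k : 𝓞 K) - (n k + d k * (hζ.toInteger - 1) ^ (m k))

variable {hζ} {r : ℕ}

lemma UnitCert.tail_congr (C : UnitCert hζ r) (a : ℕ → ℕ) (j : ℕ) (_hj : j ≤ r) :
    (hζ.toInteger - 1) ^ (C.m j + 1) ∣
      ((∏ k ∈ Finset.Ico (j + 1) (r + 1), C.w k ^ a k : (𝓞 K)ˣ) : 𝓞 K) -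
        ((∏ k ∈ Finset.Ico (j + 1) (r + 1), C.n k ^ a k : ℤ) : 𝓞 K) := by
  set π := hζ.toInteger - 1 with hπ
  rw [← Ideal.mem_span_singleton, ← Ideal.Quotient.eq]
  simp only [Units.coe_prod, Units.val_pow_eq_pow_val, map_prod, map_pow, Int.cast_prod,
    Int.cast_pow]
  refine Finset.prod_congr rfl fun k hk => ?_
  rw [Finset.mem_Ico] at hk
  congr 1
  rw [Ideal.Quotient.eq, Ideal.mem_span_singleton]
  have hk' : k ≤ r := by omega
  have hlt : C.m j + 1 ≤ C.m k := C.m_lt j k (by omega) hk'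
  have h1 : π ^ (C.m k) ∣ (C.w k : 𝓞 K) - (C.n k : 𝓞 K) := by
    have h := (pow_dvd_pow π (Nat.le_succ _)).trans (C.hw k hk')
    have h2 : π ^ (C.m k) ∣ (C.d k : 𝓞 K) * π ^ (C.m k) := Dvd.intro_left _ rfl
    have := dvd_add h h2
    convert this using 1
    ring
  exact (pow_dvd_pow π hlt).trans h1

lemma UnitCert.not_dvd_prod (C : UnitCert hζ r) (a : ℕ → ℕ) (s : Finset ℕ)
    (hs : ∀ k ∈ s, k ≤ r) : ¬ (p : ℤ) ∣ ∏ k ∈ s, C.n k ^ a k := by
  have hpprime : Prime (p : ℤ) := Nat.prime_iff_prime_int.1 hp.out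
  intro h
  obtain ⟨k, hk, hdvd⟩ := (Prime.dvd_finsetProd_iff hpprime _).1 h
  exact C.hn k (hs k hk) (hpprime.dvd_of_dvd_pow hdvd)

theorem UnitCert.dvd_of_isIntModP (C : UnitCert hζ r) (a : ℕ → ℕ) :
    ∀ (t j : ℕ), j + t = r + 1 →
      IsIntModP p ((∏ k ∈ Finset.Ico j (r + 1), C.w k ^ a k : (𝓞 K)ˣ) : 𝓞 K) →
      ∀ k ∈ Finset.Ico j (r + 1), p ∣ a k := by
  intro t
  induction t with
  | zero =>
    intro j hj _ k hk
    rw [Finset.mem_Ico] at hk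
    exact absurd hj (by omega)
  | succ t ih =>
    intro j hj hP k hk
    have hjr : j ≤ r := by omega
    rw [Finset.prod_eq_prod_Ico_succ_bot (by omega : j < r + 1)] at hP
    obtain ⟨N, hN⟩ := hP
    have hstep : p ∣ a j := by
      refine step_dvd hζ (C.one_le_m j hjr) (C.m_le j hjr) (C.w j : 𝓞 K)
        ((∏ k ∈ Finset.Ico (j + 1) (r + 1), C.w k ^ a k : (𝓞 K)ˣ) : 𝓞 K)
        (C.n j) (C.d j) (∏ k ∈ Finset.Ico (j + 1) (r + 1), C.n k ^ a k) N (a j)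
        (C.hw j hjr) (C.tail_congr a j hjr) ?_ (C.hn j hjr) (C.hd j hjr)
        (C.not_dvd_prod a _ fun k hk => by rw [Finset.mem_Ico] at hk; omega)
      simpa using hN
    rw [Finset.mem_Ico] at hk
    rcases eq_or_lt_of_le hk.1 with h | h
    · rw [← h]; exact hstep
    · refine ih (j + 1) (by omega) ?_ k (Finset.mem_Ico.2 ⟨by omega, hk.2⟩)
      obtain ⟨b, hb⟩ := hstep
      have h1 : IsIntModP p (((C.w j ^ a j)⁻¹ : (𝓞 K)ˣ) : 𝓞 K) := by
        apply IsIntModP.unit_inv hζ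
        rw [hb, mul_comm, pow_mul]
        simpa using isIntModP_pow_p hζ ((C.w j : 𝓞 K) ^ b)
      have h2 := IsIntModP.mul ⟨N, hN⟩ h1
      convert h2 using 1
      rw [← Units.val_mul]
      congr 1
      rw [mul_comm, ← mul_assoc, inv_mul_cancel, one_mul]

lemma UnitCert.dvd_of_isIntModP_fin (C : UnitCert hζ r) {M : ℕ} (hM : M = r + 1)
    (a : Fin M → ℕ)
    (h : IsIntModP p ((∏ i : Fin M, C.w i ^ a i : (𝓞 K)ˣ) : 𝓞 K)) : ∀ i, p ∣ a i := by
  subst hM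
  intro i
  let a' : ℕ → ℕ := fun k => if h : k < r + 1 then a ⟨k, h⟩ else 0
  have ha' : ∀ i : Fin (r + 1), a' i = a i := fun i => by
    simp only [a', dif_pos i.2, Fin.eta]
  have h1 : (∏ i : Fin (r + 1), C.w i ^ a i) = ∏ k ∈ Finset.Ico 0 (r + 1), C.w k ^ a' k := by
    rw [← Finset.range_eq_Ico, ← Fin.prod_univ_eq_prod_range (fun k => C.w k ^ a' k) (r + 1)]
    exact Finset.prod_congr rfl fun i _ => by rw [ha']
  rw [h1] at h
  have := C.dvd_of_isIntModP a' (r + 1) 0 (by omega) h i (Finset.mem_Ico.2 ⟨Nat.zero_le _, i.2⟩)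
  rwa [ha'] at this

theorem UnitCert.kummer (C : UnitCert hζ r) (hp2 : p ≠ 2) (hr : (p - 1) / 2 = r + 1)
    (u : (𝓞 K)ˣ) (hu : IsIntModP p (u : 𝓞 K)) : ∃ v : (𝓞 K)ˣ, u = v ^ p := by
  have hind : ∀ a : Fin ((p - 1) / 2) → ℕ,
      (∃ v : (𝓞 K)ˣ, ∏ i : Fin ((p - 1) / 2), C.w i ^ a i = v ^ p) → ∀ i, p ∣ a i := by
    rintro a ⟨v, hv⟩
    apply C.dvd_of_isIntModP_fin hr a
    rw [hv]
    simpa using isIntModP_pow_p hζ (v : 𝓞 K)
  obtain ⟨a, v, hv⟩ := units_span hp2 K (fun i : Fin ((p - 1) / 2) => C.w i) hind u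
  have h1 : IsIntModP p (((v ^ p)⁻¹ : (𝓞 K)ˣ) : 𝓞 K) := by
    apply IsIntModP.unit_inv hζ
    simpa using isIntModP_pow_p hζ (v : 𝓞 K)
  have h2 : IsIntModP p ((∏ i : Fin ((p - 1) / 2), C.w i ^ a i : (𝓞 K)ˣ) : 𝓞 K) := by
    have := IsIntModP.mul hu h1
    convert this using 1
    rw [← Units.val_mul, hv, mul_inv_cancel_right]
  have h3 := C.dvd_of_isIntModP_fin hr a h2
  choose b hb using h3
  refine ⟨(∏ i : Fin ((p - 1) / 2), C.w i ^ b i) * v, ?_⟩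
  rw [hv, mul_pow, ← Finset.prod_pow]
  congr 1
  refine Finset.prod_congr rfl fun i _ => ?_
  rw [← pow_mul, mul_comm, ← hb i]

end arith

end KL

open KL in
/-- **Kummer's lemma from triangular unit data**: if for every level `2k` (`2 ≤ 2k ≤ p - 3`)
there is a unit congruent to `m (1 + c π^(2k))` modulo `π^(2k+1)` with `p ∤ m c`, then every unit
congruent to a rational integer modulo `p` is a `p`-th power. -/
theorem kummer_of_triangular {p : ℕ} [hp : Fact p.Prime] (hp2 : p ≠ 2) (K : Type*) [Field K]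
    [NumberField K] [IsCyclotomicExtension {p} ℚ K] {ζ : K} (hζ : IsPrimitiveRoot ζ p)
    (H : ∀ k : ℕ, 1 ≤ k → 2 * k ≤ p - 3 → ∃ (u : (𝓞 K)ˣ) (m c : ℤ), ¬ (p : ℤ) ∣ m ∧
      ¬ (p : ℤ) ∣ c ∧ (hζ.toInteger - 1) ^ (2 * k + 1) ∣
        (u : 𝓞 K) - m * (1 + c * (hζ.toInteger - 1) ^ (2 * k))) :
    ∀ (u : (𝓞 K)ˣ) (n : ℤ), (p : 𝓞 K) ∣ (u : 𝓞 K) - n → ∃ v : (𝓞 K)ˣ, u = v ^ p := by
  classical
  have hpprime : Prime (p : ℤ) := Nat.prime_iff_prime_int.1 hp.out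
  have hp3 : 3 ≤ p := by
    have := hp.out.two_le
    omega
  have hodd : p % 2 = 1 := (hp.out.eq_two_or_odd).resolve_left hp2
  have H' : ∀ k : ℕ, ∃ (u : (𝓞 K)ˣ) (m c : ℤ), 1 ≤ k → 2 * k ≤ p - 3 → (¬ (p : ℤ) ∣ m ∧
      ¬ (p : ℤ) ∣ c ∧ (hζ.toInteger - 1) ^ (2 * k + 1) ∣
        (u : 𝓞 K) - m * (1 + c * (hζ.toInteger - 1) ^ (2 * k))) := by
    intro k
    by_cases hk : 1 ≤ k ∧ 2 * k ≤ p - 3
    · obtain ⟨u, m, c, h⟩ := H k hk.1 hk.2
      exact ⟨u, m, c, fun _ _ => h⟩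
    · exact ⟨1, 0, 0, fun h1 h2 => absurd ⟨h1, h2⟩ hk⟩
  choose w mm cc hw using H'
  have hzu : IsUnit hζ.toInteger := hζ.toInteger_isPrimitiveRoot.isUnit hp.out.ne_zero
  set r : ℕ := (p - 3) / 2 with hr
  have hkr : ∀ k, k ≤ r → 2 * k ≤ p - 3 := by
    intro k hk
    omega
  let C : UnitCert hζ r :=
    { w := fun k => if k = 0 then hzu.unit else w k
      m := fun k => if k = 0 then 1 else 2 * k
      n := fun k => if k = 0 then 1 else mm k
      d := fun k => if k = 0 then 1 else mm k * cc k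
      one_le_m := by
        intro k _
        by_cases hk : k = 0
        · simp [hk]
        · simp only [hk, if_false]; omega
      m_lt := by
        intro j k hjk _
        have hk : k ≠ 0 := by omega
        by_cases hj : j = 0
        · simp only [hj, hk, if_true, if_false]; omega
        · simp only [hj, hk, if_false]; omega
      m_le := by
        intro k hk
        by_cases hk0 : k = 0
        · simp only [hk0, if_true]; omega
        · have := hkr k hk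
          simp only [hk0, if_false]; omega
      hn := by
        intro k hk
        by_cases hk0 : k = 0
        · simp only [hk0, if_true]
          exact fun h => hpprime.not_isUnit (isUnit_of_dvd_one h)
        · simp only [hk0, if_false]
          exact (hw k (by omega) (hkr k hk)).1
      hd := by
        intro k hk
        by_cases hk0 : k = 0
        · simp only [hk0, if_true]
          exact fun h => hpprime.not_isUnit (isUnit_of_dvd_one h)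
        · simp only [hk0, if_false]
          obtain ⟨h1, h2, -⟩ := hw k (by omega) (hkr k hk)
          exact fun h => (hpprime.dvd_or_dvd h).elim h1 h2
      hw := by
        intro k hk
        by_cases hk0 : k = 0
        · simp only [hk0, if_true, IsUnit.unit_spec]
          simp
        · simp only [hk0, if_false]
          obtain ⟨-, -, h3⟩ := hw k (by omega) (hkr k hk)
          convert h3 using 2
          push_cast
          ring }
  intro u n hun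
  exact C.kummer hp2 (by omega) u ⟨n, hun⟩

end Fermat.Agent.S11
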