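import Mathlib

set_option autoImplicit false

open NumberField

namespace Fermat.Agent.S11

theorem unit_level_11_1 (K : Type*) [Field K] [NumberField K] [IsCyclotomicExtension {11} ℚ K]
    {ζ : K} (hζ : IsPrimitiveRoot ζ 11) :
    ∃ (u : (𝓞 K)ˣ) (m c : ℤ), ¬ (11:ℤ) ∣ m ∧ ¬ (11:ℤ) ∣ c ∧
      (hζ.toInteger - 1)^(2*1+1) ∣ (u : 𝓞 K) - m * (1 + c * (hζ.toInteger - 1)^(2*1)) := by
  have : Fact (Nat.Prime 11) := ⟨by norm_num⟩
  have hz := hζ.toInteger_isPrimitiveRoot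
  have hpd : (hζ.toInteger - 1) ^ (2*1+1) ∣ (11 : 𝓞 K) := by
    have h1 := (IsCyclotomicExtension.Rat.associated_zeta_sub_one_pow_prime 11 hζ).dvd
    have h2 : (hζ.toInteger - 1) ^ (2*1+1) ∣ (hζ.toInteger - 1) ^ (11 - 1) := pow_dvd_pow _ (by norm_num)
    exact h2.trans (by simpa using h1)
  have hzu : IsUnit hζ.toInteger := hz.isUnit (by norm_num)
  have hu2 : IsUnit (∑ i ∈ Finset.range 2, hζ.toInteger ^ i) := hz.geom_sum_isUnit (by norm_num) (by norm_num)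
  refine ⟨hzu.unit ^ 5 * hu2.unit ^ 1, 2, 7, by norm_num, by norm_num, ?_⟩
  have key : (((hzu.unit ^ 5 * hu2.unit ^ 1 : (𝓞 K)ˣ)) : 𝓞 K) - ((2 : ℤ) : 𝓞 K) * (1 + ((7 : ℤ) : 𝓞 K) * (hζ.toInteger - 1) ^ (2*1)) =
      (hζ.toInteger - 1) ^ (2*1+1) * ((30) + (20) * (hζ.toInteger - 1) + (7) * (hζ.toInteger - 1) ^ 2 + (1) * (hζ.toInteger - 1) ^ 3) + (11 : 𝓞 K) * ((1) * (hζ.toInteger - 1) + (1) * (hζ.toInteger - 1) ^ 2) := by
    simp only [Units.val_mul, Units.val_pow_eq_pow_val, IsUnit.unit_spec, Finset.sum_range_succ, Finset.sum_range_zero]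
    push_cast
    ring
  rw [key]
  exact dvd_add (dvd_mul_right _ _) (hpd.mul_right _)

theorem unit_level_11_2 (K : Type*) [Field K] [NumberField K] [IsCyclotomicExtension {11} ℚ K]
    {ζ : K} (hζ : IsPrimitiveRoot ζ 11) :
    ∃ (u : (𝓞 K)ˣ) (m c : ℤ), ¬ (11:ℤ) ∣ m ∧ ¬ (11:ℤ) ∣ c ∧
      (hζ.toInteger - 1)^(2*2+1) ∣ (u : 𝓞 K) - m * (1 + c * (hζ.toInteger - 1)^(2*2)) := by
  have : Fact (Nat.Prime 11) := ⟨by norm_num⟩
  have hz := hζ.toInteger_isPrimitiveRoot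
  have hpd : (hζ.toInteger - 1) ^ (2*2+1) ∣ (11 : 𝓞 K) := by
    have h1 := (IsCyclotomicExtension.Rat.associated_zeta_sub_one_pow_prime 11 hζ).dvd
    have h2 : (hζ.toInteger - 1) ^ (2*2+1) ∣ (hζ.toInteger - 1) ^ (11 - 1) := pow_dvd_pow _ (by norm_num)
    exact h2.trans (by simpa using h1)
  have hzu : IsUnit hζ.toInteger := hz.isUnit (by norm_num)
  have hu2 : IsUnit (∑ i ∈ Finset.range 2, hζ.toInteger ^ i) := hz.geom_sum_isUnit (by norm_num) (by norm_num)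
  have hu3 : IsUnit (∑ i ∈ Finset.range 3, hζ.toInteger ^ i) := hz.geom_sum_isUnit (by norm_num) (by norm_num)
  refine ⟨hzu.unit ^ 4 * hu2.unit ^ 1 * hu3.unit ^ 1, 6, 9, by norm_num, by norm_num, ?_⟩
  have key : (((hzu.unit ^ 4 * hu2.unit ^ 1 * hu3.unit ^ 1 : (𝓞 K)ˣ)) : 𝓞 K) - ((6 : ℤ) : 𝓞 K) * (1 + ((9 : ℤ) : 𝓞 K) * (hζ.toInteger - 1) ^ (2*2)) =
      (hζ.toInteger - 1) ^ (2*2+1) * ((35) + (9) * (hζ.toInteger - 1) + (1) * (hζ.toInteger - 1) ^ 2) + (11 : 𝓞 K) * ((3) * (hζ.toInteger - 1) + (7) * (hζ.toInteger - 1) ^ 2 + (9) * (hζ.toInteger - 1) ^ 3 + (2) * (hζ.toInteger - 1) ^ 4) := by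
    simp only [Units.val_mul, Units.val_pow_eq_pow_val, IsUnit.unit_spec, Finset.sum_range_succ, Finset.sum_range_zero]
    push_cast
    ring
  rw [key]
  exact dvd_add (dvd_mul_right _ _) (hpd.mul_right _)

theorem unit_level_11_3 (K : Type*) [Field K] [NumberField K] [IsCyclotomicExtension {11} ℚ K]
    {ζ : K} (hζ : IsPrimitiveRoot ζ 11) :
    ∃ (u : (𝓞 K)ˣ) (m c : ℤ), ¬ (11:ℤ) ∣ m ∧ ¬ (11:ℤ) ∣ c ∧
      (hζ.toInteger - 1)^(2*3+1) ∣ (u : 𝓞 K) - m * (1 + c * (hζ.toInteger - 1)^(2*3)) := by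
  have : Fact (Nat.Prime 11) := ⟨by norm_num⟩
  have hz := hζ.toInteger_isPrimitiveRoot
  have hpd : (hζ.toInteger - 1) ^ (2*3+1) ∣ (11 : 𝓞 K) := by
    have h1 := (IsCyclotomicExtension.Rat.associated_zeta_sub_one_pow_prime 11 hζ).dvd
    have h2 : (hζ.toInteger - 1) ^ (2*3+1) ∣ (hζ.toInteger - 1) ^ (11 - 1) := pow_dvd_pow _ (by norm_num)
    exact h2.trans (by simpa using h1)
  have hzu : IsUnit hζ.toInteger := hz.isUnit (by norm_num)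
  have hu2 : IsUnit (∑ i ∈ Finset.range 2, hζ.toInteger ^ i) := hz.geom_sum_isUnit (by norm_num) (by norm_num)
  have hu4 : IsUnit (∑ i ∈ Finset.range 4, hζ.toInteger ^ i) := hz.geom_sum_isUnit (by norm_num) (by norm_num)
  have hu5 : IsUnit (∑ i ∈ Finset.range 5, hζ.toInteger ^ i) := hz.geom_sum_isUnit (by norm_num) (by norm_num)
  refine ⟨hzu.unit ^ 5 * hu2.unit ^ 1 * hu4.unit ^ 1 * hu5.unit ^ 2, 2, 5, by norm_num, by norm_num, ?_⟩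
  have key : (((hzu.unit ^ 5 * hu2.unit ^ 1 * hu4.unit ^ 1 * hu5.unit ^ 2 : (𝓞 K)ˣ)) : 𝓞 K) - ((2 : ℤ) : 𝓞 K) * (1 + ((5 : ℤ) : 𝓞 K) * (hζ.toInteger - 1) ^ (2*3)) =
      (hζ.toInteger - 1) ^ (2*3+1) * ((258140) + (234353) * (hζ.toInteger - 1) + (172991) * (hζ.toInteger - 1) ^ 2 + (103749) * (hζ.toInteger - 1) ^ 3 + (50221) * (hζ.toInteger - 1) ^ 4 + (19361) * (hζ.toInteger - 1) ^ 5 + (5813) * (hζ.toInteger - 1) ^ 6 + (1311) * (hζ.toInteger - 1) ^ 7 + (209) * (hζ.toInteger - 1) ^ 8 + (21) * (hζ.toInteger - 1) ^ 9 + (1) * (hζ.toInteger - 1) ^ 10) + (11 : 𝓞 K) * ((18) + (200) * (hζ.toInteger - 1) + (1050) * (hζ.toInteger - 1) ^ 2 + (3500) * (hζ.toInteger - 1) ^ 3 + (8305) * (hζ.toInteger - 1) ^ 4 + (14895) * (hζ.toInteger - 1) ^ 5 + (20910) * (hζ.toInteger - 1) ^ 6) := by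
    simp only [Units.val_mul, Units.val_pow_eq_pow_val, IsUnit.unit_spec, Finset.sum_range_succ, Finset.sum_range_zero]
    push_cast
    ring
  rw [key]
  exact dvd_add (dvd_mul_right _ _) (hpd.mul_right _)

theorem unit_level_11_4 (K : Type*) [Field K] [NumberField K] [IsCyclotomicExtension {11} ℚ K]
    {ζ : K} (hζ : IsPrimitiveRoot ζ 11) :
    ∃ (u : (𝓞 K)ˣ) (m c : ℤ), ¬ (11:ℤ) ∣ m ∧ ¬ (11:ℤ) ∣ c ∧
      (hζ.toInteger - 1)^(2*4+1) ∣ (u : 𝓞 K) - m * (1 + c * (hζ.toInteger - 1)^(2*4)) := by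
  have : Fact (Nat.Prime 11) := ⟨by norm_num⟩
  have hz := hζ.toInteger_isPrimitiveRoot
  have hpd : (hζ.toInteger - 1) ^ (2*4+1) ∣ (11 : 𝓞 K) := by
    have h1 := (IsCyclotomicExtension.Rat.associated_zeta_sub_one_pow_prime 11 hζ).dvd
    have h2 : (hζ.toInteger - 1) ^ (2*4+1) ∣ (hζ.toInteger - 1) ^ (11 - 1) := pow_dvd_pow _ (by norm_num)
    exact h2.trans (by simpa using h1)
  have hzu : IsUnit hζ.toInteger := hz.isUnit (by norm_num)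
  have hu2 : IsUnit (∑ i ∈ Finset.range 2, hζ.toInteger ^ i) := hz.geom_sum_isUnit (by norm_num) (by norm_num)
  have hu3 : IsUnit (∑ i ∈ Finset.range 3, hζ.toInteger ^ i) := hz.geom_sum_isUnit (by norm_num) (by norm_num)
  have hu4 : IsUnit (∑ i ∈ Finset.range 4, hζ.toInteger ^ i) := hz.geom_sum_isUnit (by norm_num) (by norm_num)
  have hu5 : IsUnit (∑ i ∈ Finset.range 5, hζ.toInteger ^ i) := hz.geom_sum_isUnit (by norm_num) (by norm_num)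
  refine ⟨hzu.unit ^ 5 * hu2.unit ^ 3 * hu3.unit ^ 4 * hu4.unit ^ 1 * hu5.unit ^ 5, 7, 10, by norm_num, by norm_num, ?_⟩
  have key : (((hzu.unit ^ 5 * hu2.unit ^ 3 * hu3.unit ^ 4 * hu4.unit ^ 1 * hu5.unit ^ 5 : (𝓞 K)ˣ)) : 𝓞 K) - ((7 : ℤ) : 𝓞 K) * (1 + ((10 : ℤ) : 𝓞 K) * (hζ.toInteger - 1) ^ (2*4)) =
      (hζ.toInteger - 1) ^ (2*4+1) * ((14496195448125) + (26910639937500) * (hζ.toInteger - 1) + (44317223128125) * (hζ.toInteger - 1) ^ 2 + (65192306958000) * (hζ.toInteger - 1) ^ 3 + (86134234555500) * (hζ.toInteger - 1) ^ 4 + (102659625841750) * (hζ.toInteger - 1) ^ 5 + (110752550568750) * (hζ.toInteger - 1) ^ 6 + (108438686432800) * (hζ.toInteger - 1) ^ 7 + (96548106999450) * (hζ.toInteger - 1) ^ 8 + (78275108037050) * (hζ.toInteger - 1) ^ 9 + (57833112144200) * (hζ.toInteger - 1) ^ 10 + (38952038989692) * (hζ.toInteger - 1) ^ 11 + (23910812810804) * (hζ.toInteger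 - 1) ^ 12 + (13367828779495) * (hζ.toInteger - 1) ^ 13 + (6798251729293) * (hζ.toInteger - 1) ^ 14 + (3139299113374) * (hζ.toInteger - 1) ^ 15 + (1313216293799) * (hζ.toInteger - 1) ^ 16 + (496117443726) * (hζ.toInteger - 1) ^ 17 + (168622735427) * (hζ.toInteger - 1) ^ 18 + (51317910948) * (hζ.toInteger - 1) ^ 19 + (13902469412) * (hζ.toInteger - 1) ^ 20 + (3328288403) * (hζ.toInteger - 1) ^ 21 + (697749773) * (hζ.toInteger - 1) ^ 22 + (126623310) * (hζ.toInteger - 1) ^ 23 + (19596517) * (hζ.toInteger - 1) ^ 24 + (2535559) * (hζ.toInteger - 1) ^ 25 + (266856) * (hζ.toInteger - 1) ^ 26 + (21946) * (hζ.toInteger - 1) ^ 27 + (1323) * (hζ.toInteger - 1) ^ 28 + (52) * (hζ.toInteger - 1) ^ 29 + (1) * (hζ.toInteger - 1) ^ 30) + (11 : 𝓞 K) * ((736363) + (16200000) * (hζ.toInteger - 1) + (175500000) * (hζ.toInteger - 1) ^ 2 + (1247400000) * (hζ.toInteger - 1) ^ 3 + (6538893750)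 * (hζ.toInteger - 1) ^ 4 + (26941275000) * (hζ.toInteger - 1) ^ 5 + (90794765625) * (hζ.toInteger - 1) ^ 6 + (257170284375) * (hζ.toInteger - 1) ^ 7 + (624276134880) * (hζ.toInteger - 1) ^ 8) := by
    simp only [Units.val_mul, Units.val_pow_eq_pow_val, IsUnit.unit_spec, Finset.sum_range_succ, Finset.sum_range_zero]
    push_cast
    ring
  rw [key]
  exact dvd_add (dvd_mul_right _ _) (hpd.mul_right _)

end Fermat.Agent.S11

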