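import Mathlib

set_option autoImplicit false

open NumberField

namespace Fermat.Agent.S11

theorem unit_level_5_1 (K : Type*) [Field K] [NumberField K] [IsCyclotomicExtension {5} ℚ K]
    {ζ : K} (hζ : IsPrimitiveRoot ζ 5) :
    ∃ (u : (𝓞 K)ˣ) (m c : ℤ), ¬ (5:ℤ) ∣ m ∧ ¬ (5:ℤ) ∣ c ∧
      (hζ.toInteger - 1)^(2*1+1) ∣ (u : 𝓞 K) - m * (1 + c * (hζ.toInteger - 1)^(2*1)) := by
  have : Fact (Nat.Prime 5) := ⟨by norm_num⟩
  have hz := hζ.toInteger_isPrimitiveRoot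
  have hpd : (hζ.toInteger - 1) ^ (2*1+1) ∣ (5 : 𝓞 K) := by
    have h1 := (IsCyclotomicExtension.Rat.associated_zeta_sub_one_pow_prime 5 hζ).dvd
    have h2 : (hζ.toInteger - 1) ^ (2*1+1) ∣ (hζ.toInteger - 1) ^ (5 - 1) := pow_dvd_pow _ (by norm_num)
    exact h2.trans (by simpa using h1)
  have hzu : IsUnit hζ.toInteger := hz.isUnit (by norm_num)
  have hu2 : IsUnit (∑ i ∈ Finset.range 2, hζ.toInteger ^ i) := hz.geom_sum_isUnit (by norm_num) (by norm_num)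
  refine ⟨hzu.unit ^ 2 * hu2.unit ^ 1, 2, 2, by norm_num, by norm_num, ?_⟩
  have key : (((hzu.unit ^ 2 * hu2.unit ^ 1 : (𝓞 K)ˣ)) : 𝓞 K) - ((2 : ℤ) : 𝓞 K) * (1 + ((2 : ℤ) : 𝓞 K) * (hζ.toInteger - 1) ^ (2*1)) =
      (hζ.toInteger - 1) ^ (2*1+1) * ((1)) + (5 : 𝓞 K) * ((1) * (hζ.toInteger - 1)) := by
    simp only [Units.val_mul, Units.val_pow_eq_pow_val, IsUnit.unit_spec, Finset.sum_range_succ, Finset.sum_range_zero]
    push_cast
    ring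
  rw [key]
  exact dvd_add (dvd_mul_right _ _) (hpd.mul_right _)

end Fermat.Agent.S11

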