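import Mathlib

set_option autoImplicit false

open NumberField

namespace Fermat.Agent.S11

theorem unit_level_7_1 (K : Type*) [Field K] [NumberField K] [IsCyclotomicExtension {7} ℚ K]
    {ζ : K} (hζ : IsPrimitiveRoot ζ 7) :
    ∃ (u : (𝓞 K)ˣ) (m c : ℤ), ¬ (7:ℤ) ∣ m ∧ ¬ (7:ℤ) ∣ c ∧
      (hζ.toInteger - 1)^(2*1+1) ∣ (u : 𝓞 K) - m * (1 + c * (hζ.toInteger - 1)^(2*1)) := by
  have : Fact (Nat.Prime 7) := ⟨by norm_num⟩
  have hz := hζ.toInteger_isPrimitiveRoot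
  have hpd : (hζ.toInteger - 1) ^ (2*1+1) ∣ (7 : 𝓞 K) := by
    have h1 := (IsCyclotomicExtension.Rat.associated_zeta_sub_one_pow_prime 7 hζ).dvd
    have h2 : (hζ.toInteger - 1) ^ (2*1+1) ∣ (hζ.toInteger - 1) ^ (7 - 1) := pow_dvd_pow _ (by norm_num)
    exact h2.trans (by simpa using h1)
  have hzu : IsUnit hζ.toInteger := hz.isUnit (by norm_num)
  have hu2 : IsUnit (∑ i ∈ Finset.range 2, hζ.toInteger ^ i) := hz.geom_sum_isUnit (by norm_num) (by norm_num)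
  refine ⟨hzu.unit ^ 3 * hu2.unit ^ 1, 2, 1, by norm_num, by norm_num, ?_⟩
  have key : (((hzu.unit ^ 3 * hu2.unit ^ 1 : (𝓞 K)ˣ)) : 𝓞 K) - ((2 : ℤ) : 𝓞 K) * (1 + ((1 : ℤ) : 𝓞 K) * (hζ.toInteger - 1) ^ (2*1)) =
      (hζ.toInteger - 1) ^ (2*1+1) * ((5) + (1) * (hζ.toInteger - 1)) + (7 : 𝓞 K) * ((1) * (hζ.toInteger - 1) + (1) * (hζ.toInteger - 1) ^ 2) := by
    simp only [Units.val_mul, Units.val_pow_eq_pow_val, IsUnit.unit_spec, Finset.sum_range_succ, Finset.sum_range_zero]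
    push_cast
    ring
  rw [key]
  exact dvd_add (dvd_mul_right _ _) (hpd.mul_right _)

theorem unit_level_7_2 (K : Type*) [Field K] [NumberField K] [IsCyclotomicExtension {7} ℚ K]
    {ζ : K} (hζ : IsPrimitiveRoot ζ 7) :
    ∃ (u : (𝓞 K)ˣ) (m c : ℤ), ¬ (7:ℤ) ∣ m ∧ ¬ (7:ℤ) ∣ c ∧
      (hζ.toInteger - 1)^(2*2+1) ∣ (u : 𝓞 K) - m * (1 + c * (hζ.toInteger - 1)^(2*2)) := by
  have : Fact (Nat.Prime 7) := ⟨by norm_num⟩
  have hz := hζ.toInteger_isPrimitiveRoot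
  have hpd : (hζ.toInteger - 1) ^ (2*2+1) ∣ (7 : 𝓞 K) := by
    have h1 := (IsCyclotomicExtension.Rat.associated_zeta_sub_one_pow_prime 7 hζ).dvd
    have h2 : (hζ.toInteger - 1) ^ (2*2+1) ∣ (hζ.toInteger - 1) ^ (7 - 1) := pow_dvd_pow _ (by norm_num)
    exact h2.trans (by simpa using h1)
  have hzu : IsUnit hζ.toInteger := hz.isUnit (by norm_num)
  have hu2 : IsUnit (∑ i ∈ Finset.range 2, hζ.toInteger ^ i) := hz.geom_sum_isUnit (by norm_num) (by norm_num)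
  have hu3 : IsUnit (∑ i ∈ Finset.range 3, hζ.toInteger ^ i) := hz.geom_sum_isUnit (by norm_num) (by norm_num)
  refine ⟨hzu.unit ^ 5 * hu2.unit ^ 2 * hu3.unit ^ 1, 5, 3, by norm_num, by norm_num, ?_⟩
  have key : (((hzu.unit ^ 5 * hu2.unit ^ 2 * hu3.unit ^ 1 : (𝓞 K)ˣ)) : 𝓞 K) - ((5 : ℤ) : 𝓞 K) * (1 + ((3 : ℤ) : 𝓞 K) * (hζ.toInteger - 1) ^ (2*2)) =
      (hζ.toInteger - 1) ^ (2*2+1) * ((397) + (199) * (hζ.toInteger - 1) + (64) * (hζ.toInteger - 1) ^ 2 + (12) * (hζ.toInteger - 1) ^ 3 + (1) * (hζ.toInteger - 1) ^ 4) + (7 : 𝓞 K) * ((1) + (12) * (hζ.toInteger - 1) + (37) * (hζ.toInteger - 1) ^ 2 + (66) * (hζ.toInteger - 1) ^ 3 + (73) * (hζ.toInteger - 1) ^ 4) := by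
    simp only [Units.val_mul, Units.val_pow_eq_pow_val, IsUnit.unit_spec, Finset.sum_range_succ, Finset.sum_range_zero]
    push_cast
    ring
  rw [key]
  exact dvd_add (dvd_mul_right _ _) (hpd.mul_right _)

end Fermat.Agent.S11

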