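import Mathlib
import Fermat.Agent.S11.KummerLemma
import Fermat.Agent.S11.Units5
import Fermat.Agent.S11.Units7
import Fermat.Agent.S11.Units11

set_option autoImplicit false

open NumberField

namespace Fermat.Agent.S11

/-- Kummer's lemma for `p = 5`. -/
theorem kummer_lemma_five (K : Type*) [Field K] [NumberField K] [IsCyclotomicExtension {5} ℚ K]
    (u : (𝓞 K)ˣ) (n : ℤ) (h : (5 : 𝓞 K) ∣ (u : 𝓞 K) - n) : ∃ v : (𝓞 K)ˣ, u = v ^ 5 := by
  have : Fact (Nat.Prime 5) := ⟨by norm_num⟩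
  have hζ := IsCyclotomicExtension.zeta_spec 5 ℚ K
  refine kummer_of_triangular (p := 5) (by norm_num) K hζ ?_ u n (by simpa using h)
  intro k hk1 hk2
  have hk : k = 1 := by omega
  subst hk
  exact unit_level_5_1 K hζ

/-- Kummer's lemma for `p = 7`. -/
theorem kummer_lemma_seven (K : Type*) [Field K] [NumberField K] [IsCyclotomicExtension {7} ℚ K]
    (u : (𝓞 K)ˣ) (n : ℤ) (h : (7 : 𝓞 K) ∣ (u : 𝓞 K) - n) : ∃ v : (𝓞 K)ˣ, u = v ^ 7 := by
  have : Fact (Nat.Prime 7) := ⟨by norm_num⟩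
  have hζ := IsCyclotomicExtension.zeta_spec 7 ℚ K
  refine kummer_of_triangular (p := 7) (by norm_num) K hζ ?_ u n (by simpa using h)
  intro k hk1 hk2
  have hk : k = 1 ∨ k = 2 := by omega
  rcases hk with rfl | rfl
  · exact unit_level_7_1 K hζ
  · exact unit_level_7_2 K hζ

/-- Kummer's lemma for `p = 11`. -/
theorem kummer_lemma_eleven (K : Type*) [Field K] [NumberField K]
    [IsCyclotomicExtension {11} ℚ K]
    (u : (𝓞 K)ˣ) (n : ℤ) (h : (11 : 𝓞 K) ∣ (u : 𝓞 K) - n) : ∃ v : (𝓞 K)ˣ, u = v ^ 11 := by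
  have : Fact (Nat.Prime 11) := ⟨by norm_num⟩
  have hζ := IsCyclotomicExtension.zeta_spec 11 ℚ K
  refine kummer_of_triangular (p := 11) (by norm_num) K hζ ?_ u n (by simpa using h)
  intro k hk1 hk2
  have hk : k = 1 ∨ k = 2 ∨ k = 3 ∨ k = 4 := by omega
  rcases hk with rfl | rfl | rfl | rfl
  · exact unit_level_11_1 K hζ
  · exact unit_level_11_2 K hζ
  · exact unit_level_11_3 K hζ
  · exact unit_level_11_4 K hζ

end Fermat.Agent.S11
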