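import Mathlib

/-! Unit certificates for the Kummer lemma at p = 13 (generated file).
For k = 1..5 we exhibit a cyclotomic unit congruent to m * (1 + c * (zeta - 1)^(2k))
modulo (zeta - 1)^(2k+1). -/

open NumberField

namespace Fermat.Agent.S11

lemma u13_step {A : Type*} [CommRing A] {q P R f R' : A} (h : q ∣ P - R)
    (h' : q ∣ R * f - R') : q ∣ P * f - R' := by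
  have e : P * f - R' = (P - R) * f + (R * f - R') := by ring
  rw [e]
  exact dvd_add (Dvd.dvd.mul_right h f) h'

lemma u13_mk {A : Type*} [CommRing A] (a b : A) (h : a * b = 1) : ∃ U : Aˣ, (U : A) = a :=
  ⟨Units.mkOfMulEqOne a b h, rfl⟩

lemma u13_unit_X3 {A : Type*} [CommRing A] (z : A)
    (hcyc : 1 + z + z ^ 2 + z ^ 3 + z ^ 4 + z ^ 5 + z ^ 6 + z ^ 7 + z ^ 8 + z ^ 9 + z ^ 10 + z ^ 11 + z ^ 12 = 0) :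
    ∃ U : Aˣ, (U : A) = 1 + z + z ^ 2 :=
  u13_mk _ (1 + z ^ 2 + z ^ 3 + z ^ 5 + z ^ 6 + z ^ 8 + z ^ 9 + z ^ 11 + z ^ 12)
    (by linear_combination (z + z ^ 2) * hcyc)

lemma u13_unit_X4 {A : Type*} [CommRing A] (z : A)
    (hcyc : 1 + z + z ^ 2 + z ^ 3 + z ^ 4 + z ^ 5 + z ^ 6 + z ^ 7 + z ^ 8 + z ^ 9 + z ^ 10 + z ^ 11 + z ^ 12 = 0) :
    ∃ U : Aˣ, (U : A) = 1 + z + z ^ 2 + z ^ 3 :=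
  u13_mk _ (1 + z ^ 2 + z ^ 3 + z ^ 4 + z ^ 6 + z ^ 7 + z ^ 8 + z ^ 10 + z ^ 11 + z ^ 12)
    (by linear_combination (z + z ^ 2 + z ^ 3) * hcyc)

lemma u13_unit_X5 {A : Type*} [CommRing A] (z : A)
    (hcyc : 1 + z + z ^ 2 + z ^ 3 + z ^ 4 + z ^ 5 + z ^ 6 + z ^ 7 + z ^ 8 + z ^ 9 + z ^ 10 + z ^ 11 + z ^ 12 = 0) :
    ∃ U : Aˣ, (U : A) = 1 + z + z ^ 2 + z ^ 3 + z ^ 4 :=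
  u13_mk _ (1 + z ^ 2 + z ^ 4 + z ^ 5 + z ^ 7 + z ^ 9 + z ^ 10 + z ^ 12)
    (by linear_combination (z + z ^ 2 + z ^ 4) * hcyc)

lemma u13_unit_X6 {A : Type*} [CommRing A] (z : A)
    (hcyc : 1 + z + z ^ 2 + z ^ 3 + z ^ 4 + z ^ 5 + z ^ 6 + z ^ 7 + z ^ 8 + z ^ 9 + z ^ 10 + z ^ 11 + z ^ 12 = 0) :
    ∃ U : Aˣ, (U : A) = 1 + z + z ^ 2 + z ^ 3 + z ^ 4 + z ^ 5 :=
  u13_mk _ (1 + z ^ 2 + z ^ 3 + z ^ 4 + z ^ 5 + z ^ 6 + z ^ 8 + z ^ 9 + z ^ 10 + z ^ 11 + z ^ 12)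
    (by linear_combination (z + z ^ 2 + z ^ 3 + z ^ 4 + z ^ 5) * hcyc)

lemma u13_unit_Y2 {A : Type*} [CommRing A] (z : A)
    (hcyc : 1 + z + z ^ 2 + z ^ 3 + z ^ 4 + z ^ 5 + z ^ 6 + z ^ 7 + z ^ 8 + z ^ 9 + z ^ 10 + z ^ 11 + z ^ 12 = 0) :
    ∃ U : Aˣ, (U : A) = 1 + z ^ 2 + z ^ 4 + z ^ 6 + z ^ 8 + z ^ 10 + z ^ 12 :=
  u13_mk _ (1 + z)
    (by linear_combination (z) * hcyc)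

lemma u13_unit_Y3 {A : Type*} [CommRing A] (z : A)
    (hcyc : 1 + z + z ^ 2 + z ^ 3 + z ^ 4 + z ^ 5 + z ^ 6 + z ^ 7 + z ^ 8 + z ^ 9 + z ^ 10 + z ^ 11 + z ^ 12 = 0) :
    ∃ U : Aˣ, (U : A) = 1 + z ^ 2 + z ^ 3 + z ^ 5 + z ^ 6 + z ^ 8 + z ^ 9 + z ^ 11 + z ^ 12 :=
  u13_mk _ (1 + z + z ^ 2)
    (by linear_combination (z + z ^ 2) * hcyc)

lemma u13_unit_Y4 {A : Type*} [CommRing A] (z : A)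
    (hcyc : 1 + z + z ^ 2 + z ^ 3 + z ^ 4 + z ^ 5 + z ^ 6 + z ^ 7 + z ^ 8 + z ^ 9 + z ^ 10 + z ^ 11 + z ^ 12 = 0) :
    ∃ U : Aˣ, (U : A) = 1 + z ^ 2 + z ^ 3 + z ^ 4 + z ^ 6 + z ^ 7 + z ^ 8 + z ^ 10 + z ^ 11 + z ^ 12 :=
  u13_mk _ (1 + z + z ^ 2 + z ^ 3)
    (by linear_combination (z + z ^ 2 + z ^ 3) * hcyc)

lemma u13_unit_Y6 {A : Type*} [CommRing A] (z : A)
    (hcyc : 1 + z + z ^ 2 + z ^ 3 + z ^ 4 + z ^ 5 + z ^ 6 + z ^ 7 + z ^ 8 + z ^ 9 + z ^ 10 + z ^ 11 + z ^ 12 = 0) :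
    ∃ U : Aˣ, (U : A) = 1 + z ^ 2 + z ^ 3 + z ^ 4 + z ^ 5 + z ^ 6 + z ^ 8 + z ^ 9 + z ^ 10 + z ^ 11 + z ^ 12 :=
  u13_mk _ (1 + z + z ^ 2 + z ^ 3 + z ^ 4 + z ^ 5)
    (by linear_combination (z + z ^ 2 + z ^ 3 + z ^ 4 + z ^ 5) * hcyc)

lemma u13_unit_Z {A : Type*} [CommRing A] (z : A)
    (hcyc : 1 + z + z ^ 2 + z ^ 3 + z ^ 4 + z ^ 5 + z ^ 6 + z ^ 7 + z ^ 8 + z ^ 9 + z ^ 10 + z ^ 11 + z ^ 12 = 0) :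
    ∃ U : Aˣ, (U : A) = z :=
  u13_mk _ (z ^ 12)
    (by linear_combination (-1 + z) * hcyc)

lemma u13_unit_Zi {A : Type*} [CommRing A] (z : A)
    (hcyc : 1 + z + z ^ 2 + z ^ 3 + z ^ 4 + z ^ 5 + z ^ 6 + z ^ 7 + z ^ 8 + z ^ 9 + z ^ 10 + z ^ 11 + z ^ 12 = 0) :
    ∃ U : Aˣ, (U : A) = z ^ 12 :=
  u13_mk _ (z)
    (by linear_combination (-1 + z) * hcyc)

lemma u13_core_1 {A : Type*} [CommRing A] (T v Y3 Z : A)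
    (h13 : (13 : A) = T ^ 12 * v)
    (eY3 : Y3 = 9 + 56 * T + 214 * T ^ 2 + 556 * T ^ 3 + 1041 * T ^ 4 + 1443 * T ^ 5 + 1499 * T ^ 6 + 1166 * T ^ 7 + 670 * T ^ 8 + 276 * T ^ 9 + 77 * T ^ 10 + 13 * T ^ 11 + T ^ 12)
    (eZ : Z = 1 + T)
    : T ^ 3 ∣ Z * Y3 - 9 * (1 + 4 * T ^ 2) := by
  have s1 : T ^ 3 ∣ Z - (1 + T) :=
    ⟨(0) + T ^ 9 * v * (0), by linear_combination (0) * h13 + (1) * eZ⟩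
  have s2 : T ^ 3 ∣ Z * Y3 - 9 * (1 + 4 * T ^ 2) :=
    u13_step s1 ⟨(770 + 1597 * T + 2484 * T ^ 2 + 2942 * T ^ 3 + 2665 * T ^ 4 + 1836 * T ^ 5 + 946 * T ^ 6 + 353 * T ^ 7 + 90 * T ^ 8 + 14 * T ^ 9 + T ^ 10) + T ^ 9 * v * (5 * T + 18 * T ^ 2), by linear_combination (5 * T + 18 * T ^ 2) * h13 + (1 + T) * eY3⟩
  exact s2

lemma u13_core_2 {A : Type*} [CommRing A] (T v X5 X6 Y2 : A)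
    (h13 : (13 : A) = T ^ 12 * v)
    (eX5 : X5 = 5 + 10 * T + 10 * T ^ 2 + 5 * T ^ 3 + T ^ 4)
    (eX6 : X6 = 6 + 15 * T + 20 * T ^ 2 + 15 * T ^ 3 + 6 * T ^ 4 + T ^ 5)
    (eY2 : Y2 = 7 + 42 * T + 161 * T ^ 2 + 420 * T ^ 3 + 791 * T ^ 4 + 1106 * T ^ 5 + 1163 * T ^ 6 + 920 * T ^ 7 + 541 * T ^ 8 + 230 * T ^ 9 + 67 * T ^ 10 + 12 * T ^ 11 + T ^ 12)
    : T ^ 5 ∣ Y2 * X5 * X6 * X6 - 12 * (1 + 11 * T ^ 4) := by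
  have s1 : T ^ 5 ∣ Y2 - (7 + 3 * T + 5 * T ^ 2 + 4 * T ^ 3 + 11 * T ^ 4) :=
    ⟨(1106 + 1163 * T + 920 * T ^ 2 + 541 * T ^ 3 + 230 * T ^ 4 + 67 * T ^ 5 + 12 * T ^ 6 + T ^ 7) + T ^ 7 * v * (3 * T + 12 * T ^ 2 + 32 * T ^ 3 + 60 * T ^ 4), by linear_combination (3 * T + 12 * T ^ 2 + 32 * T ^ 3 + 60 * T ^ 4) * h13 + (1) * eY2⟩
  have s2 : T ^ 5 ∣ Y2 * X5 - (9 + 7 * T + 8 * T ^ 2 + 5 * T ^ 3 + 11 * T ^ 4) :=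
    u13_step s1 ⟨(178 + 135 * T + 59 * T ^ 2 + 11 * T ^ 3) + T ^ 7 * v * (2 + 6 * T + 9 * T ^ 2 + 10 * T ^ 3 + 12 * T ^ 4), by linear_combination (2 + 6 * T + 9 * T ^ 2 + 10 * T ^ 3 + 12 * T ^ 4) * h13 + (7 + 3 * T + 5 * T ^ 2 + 4 * T ^ 3 + 11 * T ^ 4) * eX5⟩
  have s3 : T ^ 5 ∣ Y2 * X5 * X6 - (2 + 8 * T + 8 * T ^ 2 + 9 * T ^ 3 + 5 * T ^ 4) :=
    u13_step s2 ⟨(436 + 350 * T + 203 * T ^ 2 + 71 * T ^ 3 + 11 * T ^ 4) + T ^ 7 * v * (4 + 13 * T + 25 * T ^ 2 + 32 * T ^ 3 + 35 * T ^ 4), by linear_combination (4 + 13 * T + 25 * T ^ 2 + 32 * T ^ 3 + 35 * T ^ 4) * h13 + (9 + 7 * T + 8 * T ^ 2 + 5 * T ^ 3 + 11 * T ^ 4) * eX6⟩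
  have s4 : T ^ 5 ∣ Y2 * X5 * X6 * X6 - 12 * (1 + 11 * T ^ 4) :=
    u13_step s3 ⟨(425 + 291 * T + 137 * T ^ 2 + 39 * T ^ 3 + 5 * T ^ 4) + T ^ 7 * v * (6 * T + 16 * T ^ 2 + 28 * T ^ 3 + 25 * T ^ 4), by linear_combination (6 * T + 16 * T ^ 2 + 28 * T ^ 3 + 25 * T ^ 4) * h13 + (2 + 8 * T + 8 * T ^ 2 + 9 * T ^ 3 + 5 * T ^ 4) * eX6⟩
  exact s4

lemma u13_core_3 {A : Type*} [CommRing A] (T v Y2 Y4 Y6 : A)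
    (h13 : (13 : A) = T ^ 12 * v)
    (eY2 : Y2 = 7 + 42 * T + 161 * T ^ 2 + 420 * T ^ 3 + 791 * T ^ 4 + 1106 * T ^ 5 + 1163 * T ^ 6 + 920 * T ^ 7 + 541 * T ^ 8 + 230 * T ^ 9 + 67 * T ^ 10 + 12 * T ^ 11 + T ^ 12)
    (eY4 : Y4 = 10 + 63 * T + 240 * T ^ 2 + 621 * T ^ 3 + 1156 * T ^ 4 + 1589 * T ^ 5 + 1632 * T ^ 6 + 1251 * T ^ 7 + 706 * T ^ 8 + 285 * T ^ 9 + 78 * T ^ 10 + 13 * T ^ 11 + T ^ 12)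
    (eY6 : Y6 = 11 + 70 * T + 265 * T ^ 2 + 680 * T ^ 3 + 1252 * T ^ 4 + 1695 * T ^ 5 + 1709 * T ^ 6 + 1286 * T ^ 7 + 715 * T ^ 8 + 286 * T ^ 9 + 78 * T ^ 10 + 13 * T ^ 11 + T ^ 12)
    : T ^ 7 ∣ Y2 * Y2 * Y2 * Y2 * Y2 * Y4 * Y6 - 1 * (1 + 1 * T ^ 6) := by
  have s1 : T ^ 7 ∣ Y2 - (7 + 3 * T + 5 * T ^ 2 + 4 * T ^ 3 + 11 * T ^ 4 + T ^ 5 + 6 * T ^ 6) :=
    ⟨(920 + 541 * T + 230 * T ^ 2 + 67 * T ^ 3 + 12 * T ^ 4 + T ^ 5) + T ^ 5 * v * (3 * T + 12 * T ^ 2 + 32 * T ^ 3 + 60 * T ^ 4 + 85 * T ^ 5 + 89 * T ^ 6), by linear_combination (3 * T + 12 * T ^ 2 + 32 * T ^ 3 + 60 * T ^ 4 + 85 * T ^ 5 + 89 * T ^ 6) * h13 + (1) * eY2⟩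
  have s2 : T ^ 7 ∣ Y2 * Y2 - (10 + 3 * T + T ^ 2 + 8 * T ^ 3 + 8 * T ^ 4 + 3 * T ^ 5 + 8 * T ^ 6) :=
    u13_step s1 ⟨(23656 + 26873 * T + 27962 * T ^ 2 + 26189 * T ^ 3 + 21518 * T ^ 4 + 15147 * T ^ 5 + 8922 * T ^ 6 + 4266 * T ^ 7 + 1583 * T ^ 8 + 425 * T ^ 9 + 73 * T ^ 10 + 6 * T ^ 11) + T ^ 5 * v * (3 + 24 * T + 99 * T ^ 2 + 281 * T ^ 3 + 603 * T ^ 4 + 1025 * T ^ 5 + 1457 * T ^ 6), by linear_combination (3 + 24 * T + 99 * T ^ 2 + 281 * T ^ 3 + 603 * T ^ 4 + 1025 * T ^ 5 + 1457 * T ^ 6) * h13 + (7 + 3 * T + 5 * T ^ 2 + 4 * T ^ 3 + 11 * T ^ 4 + T ^ 5 + 6 * T ^ 6) * eY2⟩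
  have s3 : T ^ 7 ∣ Y2 * Y2 * Y2 - (5 + 12 * T + T ^ 2 + 10 * T ^ 3 + 12 * T ^ 4 + 2 * T ^ 5 + 3 * T ^ 6) :=
    u13_step s2 ⟨(24302 + 27057 * T + 28728 * T ^ 2 + 28211 * T ^ 3 + 24576 * T ^ 4 + 18345 * T ^ 5 + 11374 * T ^ 6 + 5651 * T ^ 7 + 2145 * T ^ 8 + 580 * T ^ 9 + 99 * T ^ 10 + 8 * T ^ 11) + T ^ 5 * v * (5 + 33 * T + 134 * T ^ 2 + 367 * T ^ 3 + 747 * T ^ 4 + 1192 * T ^ 5 + 1582 * T ^ 6), by linear_combination (5 + 33 * T + 134 * T ^ 2 + 367 * T ^ 3 + 747 * T ^ 4 + 1192 * T ^ 5 + 1582 * T ^ 6) * h13 + (10 + 3 * T + T ^ 2 + 8 * T ^ 3 + 8 * T ^ 4 + 3 * T ^ 5 + 8 * T ^ 6) * eY2⟩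
  have s4 : T ^ 7 ∣ Y2 * Y2 * Y2 * Y2 - (9 + 8 * T + 3 * T ^ 2 + 10 * T ^ 3 + T ^ 4 + 7 * T ^ 5 + 11 * T ^ 6) :=
    u13_step s3 ⟨(33060 + 36783 * T + 36306 * T ^ 2 + 31377 * T ^ 3 + 23188 * T ^ 4 + 14337 * T ^ 5 + 7296 * T ^ 6 + 3008 * T ^ 7 + 978 * T ^ 8 + 237 * T ^ 9 + 38 * T ^ 10 + 3 * T ^ 11) + T ^ 5 * v * (2 + 22 * T + 101 * T ^ 2 + 318 * T ^ 3 + 743 * T ^ 4 + 1351 * T ^ 5 + 2008 * T ^ 6), by linear_combination (2 + 22 * T + 101 * T ^ 2 + 318 * T ^ 3 + 743 * T ^ 4 + 1351 * T ^ 5 + 2008 * T ^ 6) * h13 + (5 + 12 * T + T ^ 2 + 10 * T ^ 3 + 12 * T ^ 4 + 2 * T ^ 5 + 3 * T ^ 6) * eY2⟩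
  have s5 : T ^ 7 ∣ Y2 * Y2 * Y2 * Y2 * Y2 - (11 + 5 * T + 12 * T ^ 2 + 12 * T ^ 3 + T ^ 4 + 3 * T ^ 5 + 4 * T ^ 6) :=
    u13_step s4 ⟨(30821 + 32280 * T + 32051 * T ^ 2 + 30872 * T ^ 3 + 27971 * T ^ 4 + 22380 * T ^ 5 + 14851 * T ^ 6 + 7751 * T ^ 7 + 3021 * T ^ 8 + 822 * T ^ 9 + 139 * T ^ 10 + 11 * T ^ 11) + T ^ 5 * v * (4 + 33 * T + 138 * T ^ 2 + 404 * T ^ 3 + 876 * T ^ 4 + 1480 * T ^ 5 + 2032 * T ^ 6), by linear_combination (4 + 33 * T + 138 * T ^ 2 + 404 * T ^ 3 + 876 * T ^ 4 + 1480 * T ^ 5 + 2032 * T ^ 6) * h13 + (9 + 8 * T + 3 * T ^ 2 + 10 * T ^ 3 + T ^ 4 + 7 * T ^ 5 + 11 * T ^ 6) * eY2⟩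
  have s6 : T ^ 7 ∣ Y2 * Y2 * Y2 * Y2 * Y2 * Y4 - (6 + 2 * T + 7 * T ^ 2 + 2 * T ^ 3 + 6 * T ^ 4 + T ^ 5 + 6 * T ^ 6) :=
    u13_step s5 ⟨(56454 + 56652 * T + 48802 * T ^ 2 + 36790 * T ^ 3 + 24928 * T ^ 4 + 15419 * T ^ 5 + 8504 * T ^ 6 + 3925 * T ^ 7 + 1399 * T ^ 8 + 352 * T ^ 9 + 55 * T ^ 10 + 4 * T ^ 11) + T ^ 5 * v * (8 + 57 * T + 236 * T ^ 2 + 685 * T ^ 3 + 1497 * T ^ 4 + 2591 * T ^ 5 + 3668 * T ^ 6), by linear_combination (8 + 57 * T + 236 * T ^ 2 + 685 * T ^ 3 + 1497 * T ^ 4 + 2591 * T ^ 5 + 3668 * T ^ 6) * h13 + (11 + 5 * T + 12 * T ^ 2 + 12 * T ^ 3 + T ^ 4 + 3 * T ^ 5 + 4 * T ^ 6) * eY4⟩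
  have s7 : T ^ 7 ∣ Y2 * Y2 * Y2 * Y2 * Y2 * Y4 * Y6 - 1 * (1 + 1 * T ^ 6) :=
    u13_step s6 ⟨(30268 + 31997 * T + 31068 * T ^ 2 + 28078 * T ^ 3 + 23261 * T ^ 4 + 16980 * T ^ 5 + 10396 * T ^ 6 + 5077 * T ^ 7 + 1874 * T ^ 8 + 487 * T ^ 9 + 79 * T ^ 10 + 6 * T ^ 11) + T ^ 5 * v * (5 + 34 * T + 139 * T ^ 2 + 394 * T ^ 3 + 841 * T ^ 4 + 1415 * T ^ 5 + 1961 * T ^ 6), by linear_combination (5 + 34 * T + 139 * T ^ 2 + 394 * T ^ 3 + 841 * T ^ 4 + 1415 * T ^ 5 + 1961 * T ^ 6) * h13 + (6 + 2 * T + 7 * T ^ 2 + 2 * T ^ 3 + 6 * T ^ 4 + T ^ 5 + 6 * T ^ 6) * eY6⟩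
  exact s7

lemma u13_core_4 {A : Type*} [CommRing A] (T v X4 X5 Y2 Y3 Z : A)
    (h13 : (13 : A) = T ^ 12 * v)
    (eX4 : X4 = 4 + 6 * T + 4 * T ^ 2 + T ^ 3)
    (eX5 : X5 = 5 + 10 * T + 10 * T ^ 2 + 5 * T ^ 3 + T ^ 4)
    (eY2 : Y2 = 7 + 42 * T + 161 * T ^ 2 + 420 * T ^ 3 + 791 * T ^ 4 + 1106 * T ^ 5 + 1163 * T ^ 6 + 920 * T ^ 7 + 541 * T ^ 8 + 230 * T ^ 9 + 67 * T ^ 10 + 12 * T ^ 11 + T ^ 12)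
    (eY3 : Y3 = 9 + 56 * T + 214 * T ^ 2 + 556 * T ^ 3 + 1041 * T ^ 4 + 1443 * T ^ 5 + 1499 * T ^ 6 + 1166 * T ^ 7 + 670 * T ^ 8 + 276 * T ^ 9 + 77 * T ^ 10 + 13 * T ^ 11 + T ^ 12)
    (eZ : Z = 1 + T)
    : T ^ 9 ∣ Z * Y2 * Y3 * Y3 * X4 * X4 * X4 * X4 * X5 - 9 * (1 + 1 * T ^ 8) := by
  have s1 : T ^ 9 ∣ Z - (1 + T) :=
    ⟨(0) + T ^ 3 * v * (0), by linear_combination (0) * h13 + (1) * eZ⟩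
  have s2 : T ^ 9 ∣ Z * Y2 - (7 + 10 * T + 8 * T ^ 2 + 9 * T ^ 3 + 2 * T ^ 4 + 12 * T ^ 5 + 7 * T ^ 6 + 3 * T ^ 7 + 5 * T ^ 8) :=
    u13_step s1 ⟨(771 + 297 * T + 79 * T ^ 2 + 13 * T ^ 3 + T ^ 4) + T ^ 3 * v * (3 * T + 15 * T ^ 2 + 44 * T ^ 3 + 93 * T ^ 4 + 145 * T ^ 5 + 174 * T ^ 6 + 160 * T ^ 7 + 112 * T ^ 8), by linear_combination (3 * T + 15 * T ^ 2 + 44 * T ^ 3 + 93 * T ^ 4 + 145 * T ^ 5 + 174 * T ^ 6 + 160 * T ^ 7 + 112 * T ^ 8) * h13 + (1 + T) * eY2⟩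
  have s3 : T ^ 9 ∣ Z * Y2 * Y3 - (11 + T + 11 * T ^ 2 + 9 * T ^ 3 + T ^ 4 + 2 * T ^ 6 + 12 * T ^ 7 + 2 * T ^ 8) :=
    u13_step s2 ⟨(51643 + 49492 * T + 45423 * T ^ 2 + 38596 * T ^ 3 + 29273 * T ^ 4 + 19274 * T ^ 5 + 10731 * T ^ 6 + 4875 * T ^ 7 + 1714 * T ^ 8 + 431 * T ^ 9 + 68 * T ^ 10 + 5 * T ^ 11) + T ^ 3 * v * (4 + 37 * T + 163 * T ^ 2 + 504 * T ^ 3 + 1160 * T ^ 4 + 2085 * T ^ 5 + 3032 * T ^ 6 + 3704 * T ^ 7 + 3984 * T ^ 8), by linear_combination (4 + 37 * T + 163 * T ^ 2 + 504 * T ^ 3 + 1160 * T ^ 4 + 2085 * T ^ 5 + 3032 * T ^ 6 + 3704 * T ^ 7 + 3984 * T ^ 8) * h13 + (7 + 10 * T + 8 * T ^ 2 + 9 * T ^ 3 + 2 * T ^ 4 + 12 * T ^ 5 + 7 * T ^ 6 + 3 * T ^ 7 + 5 * T ^ 8) * eY3⟩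
  have s4 : T ^ 9 ∣ Z * Y2 * Y3 * Y3 - (8 + T + 7 * T ^ 3 + 2 * T ^ 4 + 4 * T ^ 7 + T ^ 8) :=
    u13_step s3 ⟨(35258 + 29668 * T + 26942 * T ^ 2 + 26421 * T ^ 3 + 24319 * T ^ 4 + 18535 * T ^ 5 + 10946 * T ^ 6 + 4807 * T ^ 7 + 1502 * T ^ 8 + 312 * T ^ 9 + 38 * T ^ 10 + 2 * T ^ 11) + T ^ 3 * v * (7 + 48 * T + 193 * T ^ 2 + 540 * T ^ 3 + 1144 * T ^ 4 + 1924 * T ^ 5 + 2663 * T ^ 6 + 3103 * T ^ 7 + 3090 * T ^ 8), by linear_combination (7 + 48 * T + 193 * T ^ 2 + 540 * T ^ 3 + 1144 * T ^ 4 + 1924 * T ^ 5 + 2663 * T ^ 6 + 3103 * T ^ 7 + 3090 * T ^ 8) * h13 + (11 + T + 11 * T ^ 2 + 9 * T ^ 3 + T ^ 4 + 2 * T ^ 6 + 12 * T ^ 7 + 2 * T ^ 8) * eY3⟩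
  have s5 : T ^ 9 ∣ Z * Y2 * Y3 * Y3 * X4 - (6 + 12 * T ^ 2 + T ^ 3 + 12 * T ^ 4 + T ^ 5 + 2 * T ^ 6 + 5 * T ^ 7 + 2 * T ^ 8) :=
    u13_step s4 ⟨(22 + 8 * T + T ^ 2) + T ^ 3 * v * (2 + 4 * T + 2 * T ^ 2 + 3 * T ^ 3 + 3 * T ^ 4 + 3 * T ^ 5 + T ^ 6 + T ^ 7 + 2 * T ^ 8), by linear_combination (2 + 4 * T + 2 * T ^ 2 + 3 * T ^ 3 + 3 * T ^ 4 + 3 * T ^ 5 + T ^ 6 + T ^ 7 + 2 * T ^ 8) * h13 + (8 + T + 7 * T ^ 3 + 2 * T ^ 4 + 4 * T ^ 7 + T ^ 8) * eX4⟩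
  have s6 : T ^ 9 ∣ Z * Y2 * Y3 * Y3 * X4 * X4 - (11 + 10 * T + 7 * T ^ 2 + 4 * T ^ 3 + 11 * T ^ 4 + T ^ 5 + 11 * T ^ 6 + 9 * T ^ 7 + 8 * T ^ 8) :=
    u13_step s5 ⟨(34 + 13 * T + 2 * T ^ 2) + T ^ 3 * v * (1 + 2 * T + 5 * T ^ 2 + 6 * T ^ 3 + 7 * T ^ 4 + 7 * T ^ 5 + 4 * T ^ 6 + 3 * T ^ 7 + 3 * T ^ 8), by linear_combination (1 + 2 * T + 5 * T ^ 2 + 6 * T ^ 3 + 7 * T ^ 4 + 7 * T ^ 5 + 4 * T ^ 6 + 3 * T ^ 7 + 3 * T ^ 8) * h13 + (6 + 12 * T ^ 2 + T ^ 3 + 12 * T ^ 4 + T ^ 5 + 2 * T ^ 6 + 5 * T ^ 7 + 2 * T ^ 8) * eX4⟩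
  have s7 : T ^ 9 ∣ Z * Y2 * Y3 * Y3 * X4 * X4 * X4 - (5 + 2 * T + 2 * T ^ 2 + 5 * T ^ 3 + 2 * T ^ 4 + 2 * T ^ 5 + 7 * T ^ 6 + T ^ 8) :=
    u13_step s6 ⟨(95 + 41 * T + 8 * T ^ 2) + T ^ 3 * v * (3 + 8 * T + 10 * T ^ 2 + 8 * T ^ 3 + 8 * T ^ 4 + 7 * T ^ 5 + 7 * T ^ 6 + 9 * T ^ 7 + 10 * T ^ 8), by linear_combination (3 + 8 * T + 10 * T ^ 2 + 8 * T ^ 3 + 8 * T ^ 4 + 7 * T ^ 5 + 7 * T ^ 6 + 9 * T ^ 7 + 10 * T ^ 8) * h13 + (11 + 10 * T + 7 * T ^ 2 + 4 * T ^ 3 + 11 * T ^ 4 + T ^ 5 + 11 * T ^ 6 + 9 * T ^ 7 + 8 * T ^ 8) * eX4⟩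
  have s8 : T ^ 9 ∣ Z * Y2 * Y3 * Y3 * X4 * X4 * X4 * X4 - (7 + 12 * T + T ^ 2 + 6 * T ^ 3 + 9 * T ^ 4 + 3 * T ^ 5 + T ^ 6 + 8 * T ^ 8) :=
    u13_step s7 ⟨(13 + 4 * T + T ^ 2) + T ^ 3 * v * (1 + 2 * T + 3 * T ^ 2 + 3 * T ^ 3 + 3 * T ^ 4 + 3 * T ^ 5 + 4 * T ^ 6 + 4 * T ^ 7 + 2 * T ^ 8), by linear_combination (1 + 2 * T + 3 * T ^ 2 + 3 * T ^ 3 + 3 * T ^ 4 + 3 * T ^ 5 + 4 * T ^ 6 + 4 * T ^ 7 + 2 * T ^ 8) * h13 + (5 + 2 * T + 2 * T ^ 2 + 5 * T ^ 3 + 2 * T ^ 4 + 2 * T ^ 5 + 7 * T ^ 6 + T ^ 8) * eX4⟩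
  have s9 : T ^ 9 ∣ Z * Y2 * Y3 * Y3 * X4 * X4 * X4 * X4 * X5 - 9 * (1 + 1 * T ^ 8) :=
    u13_step s8 ⟨(88 + 81 * T + 40 * T ^ 2 + 8 * T ^ 3) + T ^ 3 * v * (2 + 10 * T + 15 * T ^ 2 + 15 * T ^ 3 + 14 * T ^ 4 + 14 * T ^ 5 + 12 * T ^ 6 + 7 * T ^ 7 + 5 * T ^ 8), by linear_combination (2 + 10 * T + 15 * T ^ 2 + 15 * T ^ 3 + 14 * T ^ 4 + 14 * T ^ 5 + 12 * T ^ 6 + 7 * T ^ 7 + 5 * T ^ 8) * h13 + (7 + 12 * T + T ^ 2 + 6 * T ^ 3 + 9 * T ^ 4 + 3 * T ^ 5 + T ^ 6 + 8 * T ^ 8) * eX5⟩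
  exact s9

lemma u13_core_5 {A : Type*} [CommRing A] (T v X3 X4 X5 Y2 Y6 Zi : A)
    (h13 : (13 : A) = T ^ 12 * v)
    (eX3 : X3 = 3 + 3 * T + T ^ 2)
    (eX4 : X4 = 4 + 6 * T + 4 * T ^ 2 + T ^ 3)
    (eX5 : X5 = 5 + 10 * T + 10 * T ^ 2 + 5 * T ^ 3 + T ^ 4)
    (eY2 : Y2 = 7 + 42 * T + 161 * T ^ 2 + 420 * T ^ 3 + 791 * T ^ 4 + 1106 * T ^ 5 + 1163 * T ^ 6 + 920 * T ^ 7 + 541 * T ^ 8 + 230 * T ^ 9 + 67 * T ^ 10 + 12 * T ^ 11 + T ^ 12)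
    (eY6 : Y6 = 11 + 70 * T + 265 * T ^ 2 + 680 * T ^ 3 + 1252 * T ^ 4 + 1695 * T ^ 5 + 1709 * T ^ 6 + 1286 * T ^ 7 + 715 * T ^ 8 + 286 * T ^ 9 + 78 * T ^ 10 + 13 * T ^ 11 + T ^ 12)
    (eZi : Zi = 1 + 12 * T + 66 * T ^ 2 + 220 * T ^ 3 + 495 * T ^ 4 + 792 * T ^ 5 + 924 * T ^ 6 + 792 * T ^ 7 + 495 * T ^ 8 + 220 * T ^ 9 + 66 * T ^ 10 + 12 * T ^ 11 + T ^ 12)
    : T ^ 11 ∣ Zi * Zi * Y2 * Y2 * Y2 * X3 * X3 * X3 * X4 * X5 * X5 * X5 * X5 * Y6 - 12 * (1 + 11 * T ^ 10) := by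
  have s1 : T ^ 11 ∣ Zi - (1 + 12 * T + T ^ 2 + 12 * T ^ 3 + T ^ 4 + 12 * T ^ 5 + T ^ 6 + 12 * T ^ 7 + T ^ 8 + 12 * T ^ 9 + T ^ 10) :=
    ⟨(12 + T) + T ^ 1 * v * (5 * T ^ 2 + 16 * T ^ 3 + 38 * T ^ 4 + 60 * T ^ 5 + 71 * T ^ 6 + 60 * T ^ 7 + 38 * T ^ 8 + 16 * T ^ 9 + 5 * T ^ 10), by linear_combination (5 * T ^ 2 + 16 * T ^ 3 + 38 * T ^ 4 + 60 * T ^ 5 + 71 * T ^ 6 + 60 * T ^ 7 + 38 * T ^ 8 + 16 * T ^ 9 + 5 * T ^ 10) * h13 + (1) * eZi⟩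
  have s2 : T ^ 11 ∣ Zi * Zi - (1 + 11 * T + 3 * T ^ 2 + 9 * T ^ 3 + 5 * T ^ 4 + 7 * T ^ 5 + 7 * T ^ 6 + 5 * T ^ 7 + 9 * T ^ 8 + 3 * T ^ 9 + 11 * T ^ 10) :=
    u13_step s1 ⟨(26600 + 26479 * T + 25808 * T ^ 2 + 23773 * T ^ 3 + 19648 * T ^ 4 + 13774 * T ^ 5 + 7768 * T ^ 6 + 3346 * T ^ 7 + 1036 * T ^ 8 + 211 * T ^ 9 + 24 * T ^ 10 + T ^ 11) + T ^ 1 * v * (T + 16 * T ^ 2 + 79 * T ^ 3 + 257 * T ^ 4 + 597 * T ^ 5 + 1059 * T ^ 6 + 1511 * T ^ 7 + 1828 * T ^ 8 + 1985 * T ^ 9 + 2036 * T ^ 10), by linear_combination (T + 16 * T ^ 2 + 79 * T ^ 3 + 257 * T ^ 4 + 597 * T ^ 5 + 1059 * T ^ 6 + 1511 * T ^ 7 + 1828 * T ^ 8 + 1985 * T ^ 9 + 2036 * T ^ 10) * h13 + (1 + 12 * T + T ^ 2 + 12 * T ^ 3 + T ^ 4 + 12 * T ^ 5 + T ^ 6 + 12 * T ^ 7 + T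 ^ 8 + 12 * T ^ 9 + T ^ 10) * eZi⟩
  have s3 : T ^ 11 ∣ Zi * Zi * Y2 - (7 + 2 * T + 7 * T ^ 2 + T ^ 3 + 2 * T ^ 4 + 9 * T ^ 5 + 12 * T ^ 6 + 3 * T ^ 7 + 3 * T ^ 8 + 12 * T ^ 10) :=
    u13_step s2 ⟨(35471 + 35370 * T + 34789 * T ^ 2 + 32929 * T ^ 3 + 28788 * T ^ 4 + 22130 * T ^ 5 + 14239 * T ^ 6 + 7311 * T ^ 7 + 2844 * T ^ 8 + 782 * T ^ 9 + 135 * T ^ 10 + 11 * T ^ 11) + T ^ 1 * v * (9 * T + 49 * T ^ 2 + 183 * T ^ 3 + 485 * T ^ 4 + 982 * T ^ 5 + 1586 * T ^ 6 + 2131 * T ^ 7 + 2492 * T ^ 8 + 2663 * T ^ 9 + 2718 * T ^ 10), by linear_combination (9 * T + 49 * T ^ 2 + 183 * T ^ 3 + 485 * T ^ 4 + 982 * T ^ 5 + 1586 * T ^ 6 + 2131 * T ^ 7 + 2492 * T ^ 8 + 2663 * T ^ 9 + 2718 * T ^ 10) * h13 + (1 + 11 * T + 3 * T ^ 2 + 9 * T ^ 3 + 5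 * T ^ 4 + 7 * T ^ 5 + 7 * T ^ 6 + 5 * T ^ 7 + 9 * T ^ 8 + 3 * T ^ 9 + 11 * T ^ 10) * eY2⟩
  have s4 : T ^ 11 ∣ Zi * Zi * Y2 * Y2 - (10 + 9 * T + 12 * T ^ 2 + T ^ 3 + 7 * T ^ 4 + T ^ 5 + 12 * T ^ 6 + 2 * T ^ 7 + 7 * T ^ 8 + 3 * T ^ 9 + 11 * T ^ 10) :=
    u13_step s3 ⟨(32085 + 31671 * T + 28369 * T ^ 2 + 24456 * T ^ 3 + 21043 * T ^ 4 + 17183 * T ^ 5 + 12084 * T ^ 6 + 6741 * T ^ 7 + 2799 * T ^ 8 + 807 * T ^ 9 + 144 * T ^ 10 + 12 * T ^ 11) + T ^ 1 * v * (3 + 23 * T + 96 * T ^ 2 + 274 * T ^ 3 + 581 * T ^ 4 + 967 * T ^ 5 + 1314 * T ^ 6 + 1547 * T ^ 7 + 1716 * T ^ 8 + 1944 * T ^ 9 + 2248 * T ^ 10), by linear_combination (3 + 23 * T + 96 * T ^ 2 + 274 * T ^ 3 + 581 * T ^ 4 + 967 * T ^ 5 + 1314 * T ^ 6 + 1547 * T ^ 7 + 1716 * T ^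 8 + 1944 * T ^ 9 + 2248 * T ^ 10) * h13 + (7 + 2 * T + 7 * T ^ 2 + T ^ 3 + 2 * T ^ 4 + 9 * T ^ 5 + 12 * T ^ 6 + 3 * T ^ 7 + 3 * T ^ 8 + 12 * T ^ 10) * eY2⟩
  have s5 : T ^ 11 ∣ Zi * Zi * Y2 * Y2 * Y2 - (5 + 2 * T + 5 * T ^ 2 + 11 * T ^ 3 + 11 * T ^ 4 + 8 * T ^ 5 + 2 * T ^ 6 + 10 * T ^ 8 + 3 * T ^ 9 + 4 * T ^ 10) :=
    u13_step s4 ⟨(30366 + 30595 * T + 30472 * T ^ 2 + 29215 * T ^ 3 + 26089 * T ^ 4 + 20623 * T ^ 5 + 13632 * T ^ 6 + 7146 * T ^ 7 + 2817 * T ^ 8 + 780 * T ^ 9 + 135 * T ^ 10 + 11 * T ^ 11) + T ^ 1 * v * (5 + 37 * T + 159 * T ^ 2 + 473 * T ^ 3 + 1054 * T ^ 4 + 1821 * T ^ 5 + 2519 * T ^ 6 + 2873 * T ^ 7 + 2828 * T ^ 8 + 2583 * T ^ 9 + 2389 * T ^ 10), by linear_combination (5 + 37 * T + 159 * T ^ 2 + 473 * T ^ 3 +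 1054 * T ^ 4 + 1821 * T ^ 5 + 2519 * T ^ 6 + 2873 * T ^ 7 + 2828 * T ^ 8 + 2583 * T ^ 9 + 2389 * T ^ 10) * h13 + (10 + 9 * T + 12 * T ^ 2 + T ^ 3 + 7 * T ^ 4 + T ^ 5 + 12 * T ^ 6 + 2 * T ^ 7 + 7 * T ^ 8 + 3 * T ^ 9 + 11 * T ^ 10) * eY2⟩
  have s6 : T ^ 11 ∣ Zi * Zi * Y2 * Y2 * Y2 * X3 - (2 + 8 * T + 11 * T ^ 3 + 6 * T ^ 4 + 3 * T ^ 5 + 2 * T ^ 6 + T ^ 7 + 6 * T ^ 8 + 5 * T ^ 10) :=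
    u13_step s5 ⟨(15 + 4 * T) + T ^ 1 * v * (1 + T + 2 * T ^ 2 + 3 * T ^ 3 + 5 * T ^ 4 + 5 * T ^ 5 + 3 * T ^ 6 + T ^ 7 + 2 * T ^ 8 + 3 * T ^ 9 + 2 * T ^ 10), by linear_combination (1 + T + 2 * T ^ 2 + 3 * T ^ 3 + 5 * T ^ 4 + 5 * T ^ 5 + 3 * T ^ 6 + T ^ 7 + 2 * T ^ 8 + 3 * T ^ 9 + 2 * T ^ 10) * h13 + (5 + 2 * T + 5 * T ^ 2 + 11 * T ^ 3 + 11 * T ^ 4 + 8 * T ^ 5 + 2 * T ^ 6 + 10 * T ^ 8 + 3 * T ^ 9 + 4 * T ^ 10) * eX3⟩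
  have s7 : T ^ 11 ∣ Zi * Zi * Y2 * Y2 * Y2 * X3 * X3 - (6 + 4 * T + 2 * T ^ 3 + 12 * T ^ 4 + 12 * T ^ 5 + 8 * T ^ 6 + 12 * T ^ 7 + 10 * T ^ 8 + 6 * T ^ 9 + 8 * T ^ 10) :=
    u13_step s6 ⟨(15 + 5 * T) + T ^ 1 * v * (2 * T + 2 * T ^ 2 + 3 * T ^ 3 + 3 * T ^ 4 + 2 * T ^ 5 + T ^ 6 + T ^ 8 + T ^ 9 + T ^ 10), by linear_combination (2 * T + 2 * T ^ 2 + 3 * T ^ 3 + 3 * T ^ 4 + 2 * T ^ 5 + T ^ 6 + T ^ 8 + T ^ 9 + T ^ 10) * h13 + (2 + 8 * T + 11 * T ^ 3 + 6 * T ^ 4 + 3 * T ^ 5 + 2 * T ^ 6 + T ^ 7 + 6 * T ^ 8 + 5 * T ^ 10) * eX3⟩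
  have s8 : T ^ 11 ∣ Zi * Zi * Y2 * Y2 * Y2 * X3 * X3 * X3 - (5 + 4 * T + 5 * T ^ 2 + 10 * T ^ 3 + 3 * T ^ 4 + 9 * T ^ 5 + 7 * T ^ 6 + 7 * T ^ 7 + 9 * T ^ 8 + 8 * T ^ 9) :=
    u13_step s7 ⟨(30 + 8 * T) + T ^ 1 * v * (1 + 2 * T + T ^ 2 + 3 * T ^ 4 + 5 * T ^ 5 + 5 * T ^ 6 + 5 * T ^ 7 + 5 * T ^ 8 + 4 * T ^ 9 + 4 * T ^ 10), by linear_combination (1 + 2 * T + T ^ 2 + 3 * T ^ 4 + 5 * T ^ 5 + 5 * T ^ 6 + 5 * T ^ 7 + 5 * T ^ 8 + 4 * T ^ 9 + 4 * T ^ 10) * h13 + (6 + 4 * T + 2 * T ^ 3 + 12 * T ^ 4 + 12 * T ^ 5 + 8 * T ^ 6 + 12 * T ^ 7 + 10 * T ^ 8 + 6 * T ^ 9 + 8 * T ^ 10) * eX3⟩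
  have s9 : T ^ 11 ∣ Zi * Zi * Y2 * Y2 * Y2 * X3 * X3 * X3 * X4 - (7 + 7 * T + 12 * T ^ 2 + 5 * T ^ 4 + 8 * T ^ 5 + 5 * T ^ 7 + 11 * T ^ 8 + 4 * T ^ 9) :=
    u13_step s8 ⟨(41 + 8 * T) + T ^ 1 * v * (1 + 3 * T + 4 * T ^ 2 + 7 * T ^ 3 + 7 * T ^ 4 + 7 * T ^ 5 + 8 * T ^ 6 + 8 * T ^ 7 + 8 * T ^ 8 + 9 * T ^ 9 + 7 * T ^ 10), by linear_combination (1 + 3 * T + 4 * T ^ 2 + 7 * T ^ 3 + 7 * T ^ 4 + 7 * T ^ 5 + 8 * T ^ 6 + 8 * T ^ 7 + 8 * T ^ 8 + 9 * T ^ 9 + 7 * T ^ 10) * h13 + (5 + 4 * T + 5 * T ^ 2 + 10 * T ^ 3 + 3 * T ^ 4 + 9 * T ^ 5 + 7 * T ^ 6 + 7 * T ^ 7 + 9 * T ^ 8 + 8 * T ^ 9) * eX4⟩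
  have s10 : T ^ 11 ∣ Zi * Zi * Y2 * Y2 * Y2 * X3 * X3 * X3 * X4 * X5 - (9 + T + 5 * T ^ 2 + 4 * T ^ 3 + 5 * T ^ 4 + T ^ 5 + 12 * T ^ 6 + 7 * T ^ 8 + 6 * T ^ 9 + 6 * T ^ 10) :=
    u13_step s9 ⟨(100 + 31 * T + 4 * T ^ 2) + T ^ 1 * v * (2 + 8 * T + 15 * T ^ 2 + 17 * T ^ 3 + 14 * T ^ 4 + 12 * T ^ 5 + 10 * T ^ 6 + 10 * T ^ 7 + 11 * T ^ 8 + 14 * T ^ 9 + 13 * T ^ 10), by linear_combination (2 + 8 * T + 15 * T ^ 2 + 17 * T ^ 3 + 14 * T ^ 4 + 12 * T ^ 5 + 10 * T ^ 6 + 10 * T ^ 7 + 11 * T ^ 8 + 14 * T ^ 9 + 13 * T ^ 10) * h13 + (7 + 7 * T + 12 * T ^ 2 + 5 * T ^ 4 + 8 * T ^ 5 + 5 * T ^ 7 + 11 * T ^ 8 + 4 * T ^ 9) * eX5⟩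
  have s11 : T ^ 11 ∣ Zi * Zi * Y2 * Y2 * Y2 * X3 * X3 * X3 * X4 * X5 * X5 - (6 + 4 * T + 8 * T ^ 2 + 8 * T ^ 3 + 12 * T ^ 4 + 4 * T ^ 5 + 2 * T ^ 6 + 3 * T ^ 7 + 9 * T ^ 8 + 5 * T ^ 9 + 3 * T ^ 10) :=
    u13_step s10 ⟨(155 + 97 * T + 36 * T ^ 2 + 6 * T ^ 3) + T ^ 1 * v * (3 + 7 * T + 9 * T ^ 2 + 9 * T ^ 3 + 9 * T ^ 4 + 9 * T ^ 5 + 11 * T ^ 6 + 12 * T ^ 7 + 12 * T ^ 8 + 12 * T ^ 9 + 13 * T ^ 10), by linear_combination (3 + 7 * T + 9 * T ^ 2 + 9 * T ^ 3 + 9 * T ^ 4 + 9 * T ^ 5 + 11 * T ^ 6 + 12 * T ^ 7 + 12 * T ^ 8 + 12 * T ^ 9 + 13 * T ^ 10) * h13 + (9 + T + 5 * T ^ 2 + 4 * T ^ 3 + 5 * T ^ 4 + T ^ 5 + 12 * T ^ 6 + 7 * T ^ 8 + 6 * T ^ 9 + 6 * T ^ 10) * eX5⟩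
  have s12 : T ^ 11 ∣ Zi * Zi * Y2 * Y2 * Y2 * X3 * X3 * X3 * X4 * X5 * X5 * X5 - (4 + 2 * T + 10 * T ^ 2 + 8 * T ^ 3 + 12 * T ^ 4 + 4 * T ^ 5 + 10 * T ^ 6 + 10 * T ^ 8 + 3 * T ^ 9 + 3 * T ^ 10) :=
    u13_step s11 ⟨(128 + 64 * T + 20 * T ^ 2 + 3 * T ^ 3) + T ^ 1 * v * (2 + 6 * T + 10 * T ^ 2 + 14 * T ^ 3 + 18 * T ^ 4 + 20 * T ^ 5 + 16 * T ^ 6 + 11 * T ^ 7 + 9 * T ^ 8 + 12 * T ^ 9 + 13 * T ^ 10), by linear_combination (2 + 6 * T + 10 * T ^ 2 + 14 * T ^ 3 + 18 * T ^ 4 + 20 * T ^ 5 + 16 * T ^ 6 + 11 * T ^ 7 + 9 * T ^ 8 + 12 * T ^ 9 + 13 * T ^ 10) * h13 + (6 + 4 * T + 8 * T ^ 2 + 8 * T ^ 3 + 12 * T ^ 4 + 4 * T ^ 5 + 2 * T ^ 6 + 3 * T ^ 7 + 9 * T ^ 8 + 5 * T ^ 9 + 3 * T ^ 10) * eX5⟩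
  have s13 : T ^ 11 ∣ Zi * Zi * Y2 * Y2 * Y2 * X3 * X3 * X3 * X4 * X5 * X5 * X5 * X5 - (7 + 11 * T + 6 * T ^ 2 + 11 * T ^ 3 + 7 * T ^ 4 + 12 * T ^ 5 + 12 * T ^ 10) :=
    u13_step s12 ⟨(110 + 55 * T + 18 * T ^ 2 + 3 * T ^ 3) + T ^ 1 * v * (1 + 3 * T + 8 * T ^ 2 + 13 * T ^ 3 + 19 * T ^ 4 + 20 * T ^ 5 + 20 * T ^ 6 + 16 * T ^ 7 + 14 * T ^ 8 + 13 * T ^ 9 + 11 * T ^ 10), by linear_combination (1 + 3 * T + 8 * T ^ 2 + 13 * T ^ 3 + 19 * T ^ 4 + 20 * T ^ 5 + 20 * T ^ 6 + 16 * T ^ 7 + 14 * T ^ 8 + 13 * T ^ 9 + 11 * T ^ 10) * h13 + (4 + 2 * T + 10 * T ^ 2 + 8 * T ^ 3 + 12 * T ^ 4 + 4 * T ^ 5 + 10 * T ^ 6 + 10 * T ^ 8 + 3 * T ^ 9 + 3 * T ^ 10) * eX5⟩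
  have s14 : T ^ 11 ∣ Zi * Zi * Y2 * Y2 * Y2 * X3 * X3 * X3 * X4 * X5 * X5 * X5 * X5 * Y6 - 12 * (1 + 11 * T ^ 10) :=
    u13_step s13 ⟨(40880 + 27381 * T + 19689 * T ^ 2 + 19151 * T ^ 3 + 21378 * T ^ 4 + 20671 * T ^ 5 + 15444 * T ^ 6 + 8580 * T ^ 7 + 3432 * T ^ 8 + 936 * T ^ 9 + 156 * T ^ 10 + 12 * T ^ 11) + T ^ 1 * v * (5 + 47 * T + 207 * T ^ 2 + 632 * T ^ 3 + 1437 * T ^ 4 + 2558 * T ^ 5 + 3715 * T ^ 6 + 4591 * T ^ 7 + 4998 * T ^ 8 + 4867 * T ^ 9 + 4187 * T ^ 10), by linear_combination (5 + 47 * T + 207 * T ^ 2 + 632 * T ^ 3 + 1437 * T ^ 4 + 2558 * T ^ 5 + 3715 * T ^ 6 + 4591 * T ^ 7 + 4998 * T ^ 8 + 4867 * T ^ 9 + 4187 * T ^ 10) * h13 + (7 + 11 * T + 6 * T ^ 2 + 11 * T ^ 3 + 7 * T ^ 4 + 12 * T ^ 5 + 12 * T ^ 10) * eY6⟩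
  exact s14

lemma u13_h13 (K : Type*) [Field K] [NumberField K] [IsCyclotomicExtension {13} ℚ K] {ζ : K}
    (hζ : IsPrimitiveRoot ζ 13) : ∃ v : 𝓞 K, (13 : 𝓞 K) = (hζ.toInteger - 1) ^ 12 * v := by
  have : Fact (Nat.Prime 13) := ⟨by norm_num⟩
  obtain ⟨w, hw⟩ := IsCyclotomicExtension.Rat.associated_zeta_sub_one_pow_prime 13 hζ
  refine ⟨(w : 𝓞 K), ?_⟩
  rw [show (13 - 1 : ℕ) = 12 from rfl, Nat.cast_ofNat] at hw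
  exact hw.symm

lemma u13_hcyc (K : Type*) [Field K] [NumberField K] [IsCyclotomicExtension {13} ℚ K] {ζ : K}
    (hζ : IsPrimitiveRoot ζ 13) :
    1 + hζ.toInteger + hζ.toInteger ^ 2 + hζ.toInteger ^ 3 + hζ.toInteger ^ 4 + hζ.toInteger ^ 5 + hζ.toInteger ^ 6 + hζ.toInteger ^ 7 + hζ.toInteger ^ 8 + hζ.toInteger ^ 9 + hζ.toInteger ^ 10 + hζ.toInteger ^ 11 + hζ.toInteger ^ 12 = 0 := by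
  have h := hζ.toInteger_isPrimitiveRoot.geom_sum_eq_zero (by norm_num)
  simp only [Finset.sum_range_succ, Finset.sum_range_zero, pow_zero, pow_one, zero_add] at h
  exact h

theorem unit_level_13_1 (K : Type*) [Field K] [NumberField K] [IsCyclotomicExtension {13} ℚ K]
    {ζ : K} (hζ : IsPrimitiveRoot ζ 13) :
    ∃ (u : (𝓞 K)ˣ) (m c : ℤ), ¬ (13 : ℤ) ∣ m ∧ ¬ (13 : ℤ) ∣ c ∧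
      (hζ.toInteger - 1) ^ (2 * 1 + 1) ∣
        (u : 𝓞 K) - m * (1 + c * (hζ.toInteger - 1) ^ (2 * 1)) := by
  obtain ⟨v, h13⟩ := u13_h13 K hζ
  have hcyc := u13_hcyc K hζ
  obtain ⟨Y3, hY3⟩ := u13_unit_Y3 hζ.toInteger hcyc
  obtain ⟨Z, hZ⟩ := u13_unit_Z hζ.toInteger hcyc
  refine ⟨Z * Y3, 9, 4, by norm_num, by norm_num, ?_⟩
  simp only [Int.cast_ofNat, Units.val_mul]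
  exact u13_core_1 (hζ.toInteger - 1) v (Y3 : 𝓞 K) (Z : 𝓞 K) h13
    (by rw [hY3]; ring) (by rw [hZ]; ring)

theorem unit_level_13_2 (K : Type*) [Field K] [NumberField K] [IsCyclotomicExtension {13} ℚ K]
    {ζ : K} (hζ : IsPrimitiveRoot ζ 13) :
    ∃ (u : (𝓞 K)ˣ) (m c : ℤ), ¬ (13 : ℤ) ∣ m ∧ ¬ (13 : ℤ) ∣ c ∧
      (hζ.toInteger - 1) ^ (2 * 2 + 1) ∣
        (u : 𝓞 K) - m * (1 + c * (hζ.toInteger - 1) ^ (2 * 2)) := by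
  obtain ⟨v, h13⟩ := u13_h13 K hζ
  have hcyc := u13_hcyc K hζ
  obtain ⟨X5, hX5⟩ := u13_unit_X5 hζ.toInteger hcyc
  obtain ⟨X6, hX6⟩ := u13_unit_X6 hζ.toInteger hcyc
  obtain ⟨Y2, hY2⟩ := u13_unit_Y2 hζ.toInteger hcyc
  refine ⟨Y2 * X5 * X6 * X6, 12, 11, by norm_num, by norm_num, ?_⟩
  simp only [Int.cast_ofNat, Units.val_mul]
  exact u13_core_2 (hζ.toInteger - 1) v (X5 : 𝓞 K) (X6 : 𝓞 K) (Y2 : 𝓞 K) h13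
    (by rw [hX5]; ring) (by rw [hX6]; ring) (by rw [hY2]; ring)

theorem unit_level_13_3 (K : Type*) [Field K] [NumberField K] [IsCyclotomicExtension {13} ℚ K]
    {ζ : K} (hζ : IsPrimitiveRoot ζ 13) :
    ∃ (u : (𝓞 K)ˣ) (m c : ℤ), ¬ (13 : ℤ) ∣ m ∧ ¬ (13 : ℤ) ∣ c ∧
      (hζ.toInteger - 1) ^ (2 * 3 + 1) ∣
        (u : 𝓞 K) - m * (1 + c * (hζ.toInteger - 1) ^ (2 * 3)) := by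
  obtain ⟨v, h13⟩ := u13_h13 K hζ
  have hcyc := u13_hcyc K hζ
  obtain ⟨Y2, hY2⟩ := u13_unit_Y2 hζ.toInteger hcyc
  obtain ⟨Y4, hY4⟩ := u13_unit_Y4 hζ.toInteger hcyc
  obtain ⟨Y6, hY6⟩ := u13_unit_Y6 hζ.toInteger hcyc
  refine ⟨Y2 * Y2 * Y2 * Y2 * Y2 * Y4 * Y6, 1, 1, by norm_num, by norm_num, ?_⟩
  simp only [Int.cast_one, Units.val_mul]
  exact u13_core_3 (hζ.toInteger - 1) v (Y2 : 𝓞 K) (Y4 : 𝓞 K) (Y6 : 𝓞 K) h13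
    (by rw [hY2]; ring) (by rw [hY4]; ring) (by rw [hY6]; ring)

theorem unit_level_13_4 (K : Type*) [Field K] [NumberField K] [IsCyclotomicExtension {13} ℚ K]
    {ζ : K} (hζ : IsPrimitiveRoot ζ 13) :
    ∃ (u : (𝓞 K)ˣ) (m c : ℤ), ¬ (13 : ℤ) ∣ m ∧ ¬ (13 : ℤ) ∣ c ∧
      (hζ.toInteger - 1) ^ (2 * 4 + 1) ∣
        (u : 𝓞 K) - m * (1 + c * (hζ.toInteger - 1) ^ (2 * 4)) := by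
  obtain ⟨v, h13⟩ := u13_h13 K hζ
  have hcyc := u13_hcyc K hζ
  obtain ⟨X4, hX4⟩ := u13_unit_X4 hζ.toInteger hcyc
  obtain ⟨X5, hX5⟩ := u13_unit_X5 hζ.toInteger hcyc
  obtain ⟨Y2, hY2⟩ := u13_unit_Y2 hζ.toInteger hcyc
  obtain ⟨Y3, hY3⟩ := u13_unit_Y3 hζ.toInteger hcyc
  obtain ⟨Z, hZ⟩ := u13_unit_Z hζ.toInteger hcyc
  refine ⟨Z * Y2 * Y3 * Y3 * X4 * X4 * X4 * X4 * X5, 9, 1, by norm_num, by norm_num, ?_⟩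
  simp only [Int.cast_ofNat, Int.cast_one, Units.val_mul]
  exact u13_core_4 (hζ.toInteger - 1) v (X4 : 𝓞 K) (X5 : 𝓞 K) (Y2 : 𝓞 K) (Y3 : 𝓞 K) (Z : 𝓞 K) h13
    (by rw [hX4]; ring) (by rw [hX5]; ring) (by rw [hY2]; ring) (by rw [hY3]; ring) (by rw [hZ]; ring)

theorem unit_level_13_5 (K : Type*) [Field K] [NumberField K] [IsCyclotomicExtension {13} ℚ K]
    {ζ : K} (hζ : IsPrimitiveRoot ζ 13) :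
    ∃ (u : (𝓞 K)ˣ) (m c : ℤ), ¬ (13 : ℤ) ∣ m ∧ ¬ (13 : ℤ) ∣ c ∧
      (hζ.toInteger - 1) ^ (2 * 5 + 1) ∣
        (u : 𝓞 K) - m * (1 + c * (hζ.toInteger - 1) ^ (2 * 5)) := by
  obtain ⟨v, h13⟩ := u13_h13 K hζ
  have hcyc := u13_hcyc K hζ
  obtain ⟨X3, hX3⟩ := u13_unit_X3 hζ.toInteger hcyc
  obtain ⟨X4, hX4⟩ := u13_unit_X4 hζ.toInteger hcyc
  obtain ⟨X5, hX5⟩ := u13_unit_X5 hζ.toInteger hcyc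
  obtain ⟨Y2, hY2⟩ := u13_unit_Y2 hζ.toInteger hcyc
  obtain ⟨Y6, hY6⟩ := u13_unit_Y6 hζ.toInteger hcyc
  obtain ⟨Zi, hZi⟩ := u13_unit_Zi hζ.toInteger hcyc
  refine ⟨Zi * Zi * Y2 * Y2 * Y2 * X3 * X3 * X3 * X4 * X5 * X5 * X5 * X5 * Y6, 12, 11, by norm_num, by norm_num, ?_⟩
  simp only [Int.cast_ofNat, Units.val_mul]
  exact u13_core_5 (hζ.toInteger - 1) v (X3 : 𝓞 K) (X4 : 𝓞 K) (X5 : 𝓞 K) (Y2 : 𝓞 K) (Y6 : 𝓞 K) (Zi : 𝓞 K) h13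
    (by rw [hX3]; ring) (by rw [hX4]; ring) (by rw [hX5]; ring) (by rw [hY2]; ring) (by rw [hY6]; ring) (by rw [hZi]; ring)

/-- All levels at once, in the shape of the hypothesis `H` of `kummer_of_triangular` with `p = 13`. -/
theorem unit_levels_13 (K : Type*) [Field K] [NumberField K] [IsCyclotomicExtension {13} ℚ K]
    {ζ : K} (hζ : IsPrimitiveRoot ζ 13) :
    ∀ k : ℕ, 1 ≤ k → 2 * k ≤ 13 - 3 →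
      ∃ (u : (𝓞 K)ˣ) (m c : ℤ), ¬ ((13 : ℕ) : ℤ) ∣ m ∧ ¬ ((13 : ℕ) : ℤ) ∣ c ∧
        (hζ.toInteger - 1) ^ (2 * k + 1) ∣
          (u : 𝓞 K) - m * (1 + c * (hζ.toInteger - 1) ^ (2 * k)) := by
  intro k h1 h2
  have hk : k = 1 ∨ k = 2 ∨ k = 3 ∨ k = 4 ∨ k = 5 := by omega
  rcases hk with rfl | rfl | rfl | rfl | rfl
  · exact_mod_cast unit_level_13_1 K hζ
  · exact_mod_cast unit_level_13_2 K hζ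
  · exact_mod_cast unit_level_13_3 K hζ
  · exact_mod_cast unit_level_13_4 K hζ
  · exact_mod_cast unit_level_13_5 K hζ

end Fermat.Agent.S11
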