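import Mathlib
import Fermat.Agent.S11.KummerLemma
import Fermat.Agent.S11.Units13

set_option autoImplicit false

open NumberField

namespace Fermat.Agent.S11

/-- Kummer's lemma for `p = 13`. -/
theorem kummer_lemma_thirteen (K : Type*) [Field K] [NumberField K]
    [IsCyclotomicExtension {13} ℚ K]
    (u : (𝓞 K)ˣ) (n : ℤ) (h : (13 : 𝓞 K) ∣ (u : 𝓞 K) - n) : ∃ v : (𝓞 K)ˣ, u = v ^ 13 := by
  have : Fact (Nat.Prime 13) := ⟨by norm_num⟩
  have hζ := IsCyclotomicExtension.zeta_spec 13 ℚ K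
  refine kummer_of_triangular (p := 13) (by norm_num) K hζ ?_ u n (by simpa using h)
  intro k hk1 hk2
  have hk : k = 1 ∨ k = 2 ∨ k = 3 ∨ k = 4 ∨ k = 5 := by omega
  rcases hk with rfl | rfl | rfl | rfl | rfl
  · exact unit_level_13_1 K hζ
  · exact unit_level_13_2 K hζ
  · exact unit_level_13_3 K hζ
  · exact unit_level_13_4 K hζ
  · exact unit_level_13_5 K hζ

end Fermat.Agent.S11
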