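import Mathlib

set_option autoImplicit false

namespace Fermat.Agent.S11

open Finset

/-- The cofactor of `y + z` in `y ^ p + z ^ p` (for odd `p`). -/
def sgPhi {R : Type*} [CommRing R] (p : ℕ) (y z : R) : R :=
  ∑ i ∈ range p, y ^ i * (-z) ^ (p - 1 - i)

theorem sgPhi_mul {R : Type*} [CommRing R] {p : ℕ} (hp : Odd p) (y z : R) :
    sgPhi p y z * (y + z) = y ^ p + z ^ p := by
  have h := geom_sum₂_mul y (-z) p
  rw [hp.neg_pow, sub_neg_eq_add, sub_neg_eq_add] at h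
  exact h

theorem sgPhi_neg {R : Type*} [CommRing R] (p : ℕ) (y : R) :
    sgPhi p y (-y) = (p : R) * y ^ (p - 1) := by
  unfold sgPhi
  rw [neg_neg]
  have : ∀ i ∈ range p, y ^ i * y ^ (p - 1 - i) = y ^ (p - 1) := by
    intro i hi
    rw [← pow_add]
    congr 1
    have := mem_range.mp hi
    omega
  rw [sum_congr rfl this, sum_const, card_range, nsmul_eq_mul]

theorem sgPhi_zero_left {R : Type*} [CommRing R] {p : ℕ} (hp : Odd p) (y : R) :
    sgPhi p 0 y = y ^ (p - 1) := by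
  unfold sgPhi
  obtain ⟨k, rfl⟩ := hp
  rw [sum_range_succ', sum_eq_zero]
  · simp only [pow_zero, Nat.add_sub_cancel, Nat.sub_zero, one_mul, zero_add]
    rw [Even.neg_pow ⟨k, by ring⟩]
  · intro i _
    rw [pow_succ, mul_zero, zero_mul]

theorem map_sgPhi {R S : Type*} [CommRing R] [CommRing S] (f : R →+* S) (p : ℕ) (y z : R) :
    f (sgPhi p y z) = sgPhi p (f y) (f z) := by
  simp [sgPhi, map_sum]

theorem sgPhi_modEq (p : ℕ) (y z : ℤ) :
    (y + z) ∣ sgPhi p y z - (p : ℤ) * y ^ (p - 1) := by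
  have hcast : (((y + z).natAbs : ℕ) : ℤ) ∣ sgPhi p y z - (p : ℤ) * y ^ (p - 1) := by
    rw [← ZMod.intCast_zmod_eq_zero_iff_dvd]
    have hz : ((z : ℤ) : ZMod (y + z).natAbs) = -((y : ℤ) : ZMod (y + z).natAbs) := by
      rw [eq_neg_iff_add_eq_zero, add_comm, ← Int.cast_add,
        ZMod.intCast_zmod_eq_zero_iff_dvd]
      exact Int.natAbs_dvd.mpr dvd_rfl
    have h1 := map_sgPhi (Int.castRingHom (ZMod (y + z).natAbs)) p y z
    simp only [eq_intCast] at h1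
    rw [Int.cast_sub, h1, hz, sgPhi_neg]
    push_cast
    ring
  exact Int.natAbs_dvd.mp hcast

/-- Step 1: the two factors of `y ^ p + z ^ p` are `p`-th powers. -/
theorem sg_exists_pow {p : ℕ} (hp : p.Prime) (hp2 : p ≠ 2) {x y z : ℤ}
    (hyz : IsCoprime y z) (hpx : ¬ (p : ℤ) ∣ x) (h : x ^ p + y ^ p + z ^ p = 0) :
    (∃ a : ℤ, y + z = a ^ p) ∧ ∃ α : ℤ, sgPhi p y z = α ^ p := by
  have hodd : Odd p := hp.odd_of_ne_two hp2
  have hpZ : Prime (p : ℤ) := Nat.prime_iff_prime_int.mp hp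
  have hmul : (y + z) * sgPhi p y z = (-x) ^ p := by
    rw [mul_comm, sgPhi_mul hodd, hodd.neg_pow]
    linarith
  have hpyz : ¬ (p : ℤ) ∣ y + z := by
    intro hd
    have : (p : ℤ) ∣ (-x) ^ p := hmul ▸ Dvd.dvd.mul_right hd _
    exact hpx ((dvd_neg.mp (hpZ.dvd_of_dvd_pow this)))
  obtain ⟨k, hk⟩ := sgPhi_modEq p y z
  have hphi : sgPhi p y z = (p : ℤ) * y ^ (p - 1) + (y + z) * k := by linarith
  have hc1 : IsCoprime (y + z) y := by
    have := hyz.symm.add_mul_left_left 1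
    rwa [mul_one, add_comm] at this
  have hc2 : IsCoprime (y + z) (p : ℤ) :=
    ((Prime.coprime_iff_not_dvd hpZ).mpr hpyz).symm
  have hc : IsCoprime (y + z) (sgPhi p y z) := by
    rw [hphi]
    exact (hc2.mul_right hc1.pow_right).add_mul_left_right k
  exact ⟨Int.eq_pow_of_mul_eq_pow_odd_left hc hodd hmul,
    Int.eq_pow_of_mul_eq_pow_odd_right hc hodd hmul⟩

/-- Step 2: under the Sophie Germain hypotheses on the auxiliary prime `q`,
`q ∣ x` is impossible. -/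
theorem sg_not_dvd {p q : ℕ} (hp : p.Prime) (hp2 : p ≠ 2) [hq : Fact q.Prime]
    (H1 : ∀ x y z : ZMod q, x ^ p + y ^ p + z ^ p = 0 → x = 0 ∨ y = 0 ∨ z = 0)
    (H2 : ∀ x : ZMod q, x ^ p ≠ (p : ZMod q))
    {x y z : ℤ} (hxy : IsCoprime x y) (hyz : IsCoprime y z) (hzx : IsCoprime z x)
    (hpx : ¬ (p : ℤ) ∣ x) (hpy : ¬ (p : ℤ) ∣ y) (hpz : ¬ (p : ℤ) ∣ z)
    (h : x ^ p + y ^ p + z ^ p = 0) : ¬ (q : ℤ) ∣ x := by
  intro hqx
  have hodd : Odd p := hp.odd_of_ne_two hp2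
  have hqZ : Prime (q : ℤ) := Nat.prime_iff_prime_int.mp hq.out
  -- q does not divide y or z
  have hqy : ¬ (q : ℤ) ∣ y := fun hd => hqZ.not_isUnit (hxy.isUnit_of_dvd' hqx hd)
  have hqz : ¬ (q : ℤ) ∣ z := fun hd => hqZ.not_isUnit (hzx.isUnit_of_dvd' hd hqx)
  obtain ⟨⟨a, ha⟩, ⟨α, hα⟩⟩ := sg_exists_pow hp hp2 hyz hpx h
  obtain ⟨⟨b, hb⟩, -⟩ := sg_exists_pow hp hp2 hzx hpy (by linarith : y ^ p + z ^ p + x ^ p = 0)
  obtain ⟨⟨c, hc⟩, ⟨γ, hγ⟩⟩ :=
    sg_exists_pow hp hp2 hxy hpz (by linarith : z ^ p + x ^ p + y ^ p = 0)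
  have hx0 : ((x : ℤ) : ZMod q) = 0 := (ZMod.intCast_zmod_eq_zero_iff_dvd x q).mpr hqx
  have hy0 : ((y : ℤ) : ZMod q) ≠ 0 := fun h0 => hqy ((ZMod.intCast_zmod_eq_zero_iff_dvd y q).mp h0)
  have hz0 : ((z : ℤ) : ZMod q) ≠ 0 := fun h0 => hqz ((ZMod.intCast_zmod_eq_zero_iff_dvd z q).mp h0)
  -- the relation b^p + c^p + (-a)^p = 2x
  have hrel : (b : ZMod q) ^ p + (c : ZMod q) ^ p + (-(a : ZMod q)) ^ p = 0 := by
    have : b ^ p + c ^ p + (-a) ^ p = 2 * x := by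
      rw [hodd.neg_pow, ← ha, ← hb, ← hc]; ring
    have h2 := congrArg (Int.cast : ℤ → ZMod q) this
    push_cast at h2
    rw [h2, hx0, mul_zero]
  have haq : (a : ZMod q) = 0 := by
    rcases H1 _ _ _ hrel with hb0 | hc0 | ha0
    · exfalso
      have h2 := congrArg (Int.cast : ℤ → ZMod q) hb
      push_cast at h2
      rw [hb0, zero_pow hp.ne_zero, hx0, add_zero] at h2
      exact hz0 h2
    · exfalso
      have h2 := congrArg (Int.cast : ℤ → ZMod q) hc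
      push_cast at h2
      rw [hc0, zero_pow hp.ne_zero, hx0, zero_add] at h2
      exact hy0 h2
    · exact neg_eq_zero.mp ha0
  -- hence z = -y mod q
  have hzy : ((z : ℤ) : ZMod q) = -((y : ℤ) : ZMod q) := by
    have h2 := congrArg (Int.cast : ℤ → ZMod q) ha
    push_cast at h2
    rw [haq, zero_pow hp.ne_zero] at h2
    exact eq_neg_of_add_eq_zero_right h2
  have hα' : (α : ZMod q) ^ p = (p : ZMod q) * (y : ZMod q) ^ (p - 1) := by
    have h2 := congrArg (Int.cast : ℤ → ZMod q) hα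
    have h3 := map_sgPhi (Int.castRingHom (ZMod q)) p y z
    simp only [eq_intCast] at h3
    rw [h3, hzy, sgPhi_neg] at h2
    push_cast at h2
    exact h2.symm
  have hγ' : (γ : ZMod q) ^ p = (y : ZMod q) ^ (p - 1) := by
    have h2 := congrArg (Int.cast : ℤ → ZMod q) hγ
    have h3 := map_sgPhi (Int.castRingHom (ZMod q)) p x y
    simp only [eq_intCast] at h3
    rw [h3, hx0, sgPhi_zero_left hodd] at h2
    push_cast at h2
    exact h2.symm
  have hγ0 : (γ : ZMod q) ^ p ≠ 0 := by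
    rw [hγ']; exact pow_ne_zero _ hy0
  refine H2 ((α : ZMod q) / (γ : ZMod q)) ?_
  rw [div_pow, hα', hγ', mul_div_assoc, div_self (hγ' ▸ hγ0), mul_one]

/-- **Sophie Germain's theorem** (symmetric form). -/
theorem sophie_germain_sym {p q : ℕ} (hp : p.Prime) (hp2 : p ≠ 2) [hq : Fact q.Prime]
    (H1 : ∀ x y z : ZMod q, x ^ p + y ^ p + z ^ p = 0 → x = 0 ∨ y = 0 ∨ z = 0)
    (H2 : ∀ x : ZMod q, x ^ p ≠ (p : ZMod q))
    {x y z : ℤ} (hxy : IsCoprime x y) (hyz : IsCoprime y z) (hzx : IsCoprime z x)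
    (h : x ^ p + y ^ p + z ^ p = 0) : (p : ℤ) ∣ x * y * z := by
  by_contra hpxyz
  have hpZ : Prime (p : ℤ) := Nat.prime_iff_prime_int.mp hp
  have hpx : ¬ (p : ℤ) ∣ x := fun hd => hpxyz (Dvd.dvd.mul_right (Dvd.dvd.mul_right hd y) z)
  have hpy : ¬ (p : ℤ) ∣ y := fun hd => hpxyz (Dvd.dvd.mul_right (Dvd.dvd.mul_left hd x) z)
  have hpz : ¬ (p : ℤ) ∣ z := fun hd => hpxyz (Dvd.dvd.mul_left hd (x * y))
  have h0 : ((x : ℤ) : ZMod q) ^ p + ((y : ℤ) : ZMod q) ^ p + ((z : ℤ) : ZMod q) ^ p = 0 := by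
    have h2 := congrArg (Int.cast : ℤ → ZMod q) h
    push_cast at h2
    exact h2
  rcases H1 _ _ _ h0 with hx0 | hy0 | hz0
  · exact sg_not_dvd hp hp2 H1 H2 hxy hyz hzx hpx hpy hpz h
      ((ZMod.intCast_zmod_eq_zero_iff_dvd x q).mp hx0)
  · exact sg_not_dvd hp hp2 H1 H2 hyz hzx hxy hpy hpz hpx (by linarith)
      ((ZMod.intCast_zmod_eq_zero_iff_dvd y q).mp hy0)
  · exact sg_not_dvd hp hp2 H1 H2 hzx hxy hyz hpz hpx hpy (by linarith)
      ((ZMod.intCast_zmod_eq_zero_iff_dvd z q).mp hz0)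

/-- Sophie Germain's theorem, Fermat form: `a ^ p + b ^ p = c ^ p` with `a`, `b` coprime
forces `p ∣ a * b * c`. -/
theorem sophie_germain {p q : ℕ} (hp : p.Prime) (hp2 : p ≠ 2) [hq : Fact q.Prime]
    (H1 : ∀ x y z : ZMod q, x ^ p + y ^ p + z ^ p = 0 → x = 0 ∨ y = 0 ∨ z = 0)
    (H2 : ∀ x : ZMod q, x ^ p ≠ (p : ZMod q))
    {a b c : ℤ} (hab : IsCoprime a b) (h : a ^ p + b ^ p = c ^ p) : (p : ℤ) ∣ a * b * c := by
  have hodd : Odd p := hp.odd_of_ne_two hp2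
  have hbc : IsCoprime b c := by
    have : IsCoprime b (c ^ p) := by
      rw [← h]
      have := (hab.symm.pow_right (n := p)).add_mul_left_right (b ^ (p - 1))
      rwa [← pow_succ', Nat.sub_add_cancel hp.one_le] at this
    exact (IsCoprime.pow_right_iff hp.pos).mp this
  have hca : IsCoprime c a := by
    have : IsCoprime (c ^ p) a := by
      rw [← h]
      have := (hab.symm.pow_left (m := p)).add_mul_left_left (a ^ (p - 1))
      rwa [← pow_succ', Nat.sub_add_cancel hp.one_le, add_comm] at this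
    exact (IsCoprime.pow_left_iff hp.pos).mp this
  have h' : a ^ p + b ^ p + (-c) ^ p = 0 := by rw [hodd.neg_pow]; linarith
  have := sophie_germain_sym hp hp2 H1 H2 hab hbc.neg_right hca.neg_left h'
  rwa [mul_neg, dvd_neg] at this

end Fermat.Agent.S11

namespace Fermat.Agent.S11

theorem sg_H1_of_list {p q : ℕ} (S : List (ZMod q))
    (hS : ∀ x : ZMod q, x ≠ 0 → x ^ p ∈ S)
    (hsum : ∀ a ∈ S, ∀ b ∈ S, ∀ c ∈ S, a + b + c ≠ 0) :
    ∀ x y z : ZMod q, x ^ p + y ^ p + z ^ p = 0 → x = 0 ∨ y = 0 ∨ z = 0 := by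
  intro x y z h
  by_contra hne
  rw [not_or, not_or] at hne
  exact hsum _ (hS x hne.1) _ (hS y hne.2.1) _ (hS z hne.2.2) h

instance sgFact11 : Fact (Nat.Prime 11) := ⟨by norm_num⟩
instance sgFact23 : Fact (Nat.Prime 23) := ⟨by norm_num⟩
instance sgFact29 : Fact (Nat.Prime 29) := ⟨by norm_num⟩
instance sgFact53 : Fact (Nat.Prime 53) := ⟨by norm_num⟩

/-- Case I of Fermat's Last Theorem for exponent `5`. -/
theorem caseI_five {a b c : ℤ} (hab : IsCoprime a b) (h : a ^ 5 + b ^ 5 = c ^ 5) :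
    (5 : ℤ) ∣ a * b * c := by
  have H1 := sg_H1_of_list (p := 5) (q := 11) [1, 10] (by decide) (by decide)
  have H2 : ∀ x : ZMod 11, x ^ 5 ≠ ((5 : ℕ) : ZMod 11) := by decide
  exact_mod_cast sophie_germain (p := 5) (q := 11) (by norm_num) (by norm_num) H1 H2 hab h

/-- Case I of Fermat's Last Theorem for exponent `7`. -/
theorem caseI_seven {a b c : ℤ} (hab : IsCoprime a b) (h : a ^ 7 + b ^ 7 = c ^ 7) :
    (7 : ℤ) ∣ a * b * c := by
  have H1 := sg_H1_of_list (p := 7) (q := 29) [1, 28, 12, 17] (by decide) (by decide)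
  have H2 : ∀ x : ZMod 29, x ^ 7 ≠ ((7 : ℕ) : ZMod 29) := by decide
  exact_mod_cast sophie_germain (p := 7) (q := 29) (by norm_num) (by norm_num) H1 H2 hab h

/-- Case I of Fermat's Last Theorem for exponent `11`. -/
theorem caseI_eleven {a b c : ℤ} (hab : IsCoprime a b) (h : a ^ 11 + b ^ 11 = c ^ 11) :
    (11 : ℤ) ∣ a * b * c := by
  have H1 := sg_H1_of_list (p := 11) (q := 23) [1, 22] (by decide) (by decide)
  have H2 : ∀ x : ZMod 23, x ^ 11 ≠ ((11 : ℕ) : ZMod 23) := by decide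
  exact_mod_cast sophie_germain (p := 11) (q := 23) (by norm_num) (by norm_num) H1 H2 hab h

set_option maxRecDepth 100000 in
/-- Case I of Fermat's Last Theorem for exponent `13`. -/
theorem caseI_thirteen {a b c : ℤ} (hab : IsCoprime a b) (h : a ^ 13 + b ^ 13 = c ^ 13) :
    (13 : ℤ) ∣ a * b * c := by
  have H1 := sg_H1_of_list (p := 13) (q := 53) [1, 52, 23, 30] (by decide) (by decide)
  have H2 : ∀ x : ZMod 53, x ^ 13 ≠ ((13 : ℕ) : ZMod 53) := by decide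
  exact_mod_cast sophie_germain (p := 13) (q := 53) (by norm_num) (by norm_num) H1 H2 hab h

/-- Case I for all four exponents at once. -/
theorem caseI {p : ℕ} (hp : p = 5 ∨ p = 7 ∨ p = 11 ∨ p = 13) {a b c : ℤ}
    (hab : IsCoprime a b) (h : a ^ p + b ^ p = c ^ p) : (p : ℤ) ∣ a * b * c := by
  rcases hp with rfl | rfl | rfl | rfl
  · exact_mod_cast caseI_five hab h
  · exact_mod_cast caseI_seven hab h
  · exact_mod_cast caseI_eleven hab h
  · exact_mod_cast caseI_thirteen hab h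

end Fermat.Agent.S11
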