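import Mathlib

set_option autoImplicit false

open NumberField Polynomial IsCyclotomicExtension

namespace Fermat.Agent.S11

theorem pid11_prod_eq {R : Type*} [CommRing R] (ζ : R) (h : 1 + ζ + ζ^2 + ζ^3 + ζ^4 + ζ^5 + ζ^6 + ζ^7 + ζ^8 + ζ^9 + ζ^10 = 0) :
    (1 + ζ^1 + ζ^3) * (1 + ζ^2 + ζ^6) * (1 + ζ^3 + ζ^9) * (1 + ζ^4 + ζ^12) * (1 + ζ^5 + ζ^15) * (1 + ζ^6 + ζ^18) * (1 + ζ^7 + ζ^21) * (1 + ζ^8 + ζ^24) * (1 + ζ^9 + ζ^27) * (1 + ζ^10 + ζ^30) = 23 := by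
  linear_combination ((-22) + (23)*ζ + (2)*ζ^3 + (-1)*ζ^4 + (2)*ζ^5 + (2)*ζ^6 + (1)*ζ^7 + (1)*ζ^8 + (5)*ζ^9 + (3)*ζ^10 + (-21)*ζ^11 + (30)*ζ^12 + (2)*ζ^13 + (8)*ζ^14 + (8)*ζ^15 + (7)*ζ^16 + (6)*ζ^17 + (16)*ζ^18 + (4)*ζ^19 + (16)*ζ^20 + (18)*ζ^21 + (-13)*ζ^22 + (38)*ζ^23 + (24)*ζ^24 + (15)*ζ^25 + (17)*ζ^26 + (34)*ζ^27 + (18)*ζ^28 + (25)*ζ^29 + (33)*ζ^30 + (30)*ζ^31 + (23)*ζ^32 + (26)*ζ^33 + (43)*ζ^34 + (44)*ζ^35 + (52)*ζ^36 + (34)*ζ^37 + (38)*ζ^38 + (66)*ζ^39 + (33)*ζ^40 + (45)*ζ^41 + (75)*ζ^42 + (36)*ζ^43 + (39)*ζ^44 + (108)*ζ^45 + (39)*ζ^46 + (62)*ζ^47 + (86)*ζ^48 + (46)*ζ^49 + (69)*ζ^50 + (91)*ζ^51 + (57)*ζ^52 + (65)*ζ^53 + (109)*ζ^54 + (43)*ζ^55 + (85)*ζ^56 + (102)*ζ^57 + (69)*ζ^58 + (68)*ζ^59 + (108)*ζ^60 + (64)*ζ^61 + (78)*ζ^62 + (112)*ζ^63 + (59)*ζ^64 + (81)*ζ^65 + (124)*ζ^66 + (47)*ζ^67 + (90)*ζ^68 + (112)*ζ^69 + (56)*ζ^70 + (69)*ζ^71 + (135)*ζ^72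 + (43)*ζ^73 + (82)*ζ^74 + (105)*ζ^75 + (57)*ζ^76 + (74)*ζ^77 + (109)*ζ^78 + (50)*ζ^79 + (72)*ζ^80 + (94)*ζ^81 + (43)*ζ^82 + (76)*ζ^83 + (98)*ζ^84 + (28)*ζ^85 + (70)*ζ^86 + (89)*ζ^87 + (33)*ζ^88 + (63)*ζ^89 + (81)*ζ^90 + (30)*ζ^91 + (51)*ζ^92 + (81)*ζ^93 + (20)*ζ^94 + (54)*ζ^95 + (60)*ζ^96 + (23)*ζ^97 + (40)*ζ^98 + (64)*ζ^99 + (12)*ζ^100 + (48)*ζ^101 + (42)*ζ^102 + (19)*ζ^103 + (28)*ζ^104 + (53)*ζ^105 + (-1)*ζ^106 + (42)*ζ^107 + (25)*ζ^108 + (17)*ζ^109 + (19)*ζ^110 + (40)*ζ^111 + (-6)*ζ^112 + (30)*ζ^113 + (19)*ζ^114 + (10)*ζ^115 + (9)*ζ^116 + (31)*ζ^117 + (-9)*ζ^118 + (22)*ζ^119 + (11)*ζ^120 + (10)*ζ^121 + (4)*ζ^122 + (21)*ζ^123 + (-10)*ζ^124 + (19)*ζ^125 + (2)*ζ^126 + (5)*ζ^127 + (3)*ζ^128 + (12)*ζ^129 + (-7)*ζ^130 + (13)*ζ^131 + (1)*ζ^132 + (3)*ζ^133 + (9)*ζ^135 + (-6)*ζ^136 + (7)*ζ^137 + (2)*ζ^139 + (-1)*ζ^140 + (5)*ζ^141 + (-3)*ζ^142 + (4)*ζ^143 + (2)*ζ^147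 + (-2)*ζ^148 + (3)*ζ^149 + (-1)*ζ^150 + (1)*ζ^153 + (-1)*ζ^154 + (1)*ζ^155) * h

section

variable (K : Type*) [Field K] [NumberField K] [IsCyclotomicExtension {11} ℚ K]

lemma pid11_exists_aut_pow (k : ℕ) (hk : k.Coprime 11) :
    ∃ σ : K ≃ₐ[ℚ] K, σ (zeta 11 ℚ K) = (zeta 11 ℚ K) ^ k :=
  ⟨fromZetaAut ((zeta_spec 11 ℚ K).pow_of_coprime k hk) (cyclotomic.irreducible_rat (by norm_num)),
    fromZetaAut_spec _ _⟩

lemma pid11_zeta_geom_sum :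
    1 + (zeta 11 ℚ K) + (zeta 11 ℚ K)^2 + (zeta 11 ℚ K)^3 + (zeta 11 ℚ K)^4 + (zeta 11 ℚ K)^5
      + (zeta 11 ℚ K)^6 + (zeta 11 ℚ K)^7 + (zeta 11 ℚ K)^8 + (zeta 11 ℚ K)^9
      + (zeta 11 ℚ K)^10 = 0 := by
  have := (zeta_spec 11 ℚ K).geom_sum_eq_zero (by norm_num)
  simpa [Finset.sum_range_succ] using this

lemma pid11_norm_rat_eq :
    (Algebra.norm ℚ (1 + (zeta 11 ℚ K) + (zeta 11 ℚ K)^3)) ^ 10 = 23 ^ 10 := by
  have hirr : Irreducible (cyclotomic 11 ℚ) := cyclotomic.irreducible_rat (by norm_num)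
  have hfin : Module.finrank ℚ K = 10 := by
    rw [IsCyclotomicExtension.finrank (n := 11) K hirr]; rfl
  have key : ∀ k : ℕ, k.Coprime 11 →
      Algebra.norm ℚ (1 + (zeta 11 ℚ K)^k + (zeta 11 ℚ K)^(3*k)) =
        Algebra.norm ℚ (1 + (zeta 11 ℚ K) + (zeta 11 ℚ K)^3) := by
    intro k hk
    obtain ⟨σ, hσ⟩ := pid11_exists_aut_pow K k hk
    rw [← Algebra.norm_eq_of_algEquiv σ (1 + (zeta 11 ℚ K) + (zeta 11 ℚ K)^3)]
    congr 1
    simp only [map_add, map_one, map_pow, hσ]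
    ring
  have hprod := pid11_prod_eq (zeta 11 ℚ K) (pid11_zeta_geom_sum K)
  have hN := congrArg (Algebra.norm ℚ) hprod
  simp only [map_mul] at hN
  have e1 := key 1 (by norm_num)
  have e2 := key 2 (by norm_num)
  have e3 := key 3 (by norm_num)
  have e4 := key 4 (by norm_num)
  have e5 := key 5 (by norm_num)
  have e6 := key 6 (by norm_num)
  have e7 := key 7 (by norm_num)
  have e8 := key 8 (by norm_num)
  have e9 := key 9 (by norm_num)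
  have e10 := key 10 (by norm_num)
  simp only [Nat.reduceMul] at e1 e2 e3 e4 e5 e6 e7 e8 e9 e10
  rw [e1, e2, e3, e4, e5, e6, e7, e8, e9, e10] at hN
  have h23 : Algebra.norm ℚ (23 : K) = 23 ^ 10 := by
    have := Algebra.norm_algebraMap (S := K) (23 : ℚ)
    rw [hfin] at this
    simpa using this
  rw [h23] at hN
  rw [← hN]; ring

/-- A generator of a prime ideal above `23` in the ring of integers of `ℚ(ζ₁₁)`. -/
noncomputable def pid11_gen23 : 𝓞 K :=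
  1 + (zeta_spec 11 ℚ K).toInteger + (zeta_spec 11 ℚ K).toInteger ^ 3

lemma pid11_coe_gen23 :
    ((pid11_gen23 K : 𝓞 K) : K) = 1 + (zeta 11 ℚ K) + (zeta 11 ℚ K)^3 := by
  simp only [pid11_gen23, map_add, map_one, map_pow]
  rfl

lemma pid11_absNorm_span_gen23 : Ideal.absNorm (Ideal.span {pid11_gen23 K}) = 23 := by
  rw [Ideal.absNorm_span_singleton]
  have h1 : ((Algebra.norm ℤ (pid11_gen23 K) : ℤ) : ℚ) ^ 10 = 23 ^ 10 := by
    rw [Algebra.coe_norm_int, pid11_coe_gen23]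
    exact pid11_norm_rat_eq K
  have h2 : (Algebra.norm ℤ (pid11_gen23 K)) ^ 10 = 23 ^ 10 := by exact_mod_cast h1
  have h3 : (Algebra.norm ℤ (pid11_gen23 K)).natAbs ^ 10 = 23 ^ 10 := by
    have := congrArg Int.natAbs h2
    simpa [Int.natAbs_pow] using this
  exact Nat.pow_left_injective (by norm_num : 10 ≠ 0) h3

lemma pid11_isPrime_span_gen23 : (Ideal.span {pid11_gen23 K}).IsPrime :=
  Ideal.isPrime_of_irreducible_absNorm
    (by rw [pid11_absNorm_span_gen23]; exact (by norm_num : Nat.Prime 23))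

lemma pid11_liesOver_span_gen23 :
    (Ideal.span {pid11_gen23 K}).LiesOver (Ideal.span {((23 : ℕ) : ℤ)}) := by
  constructor
  have hmax : (Ideal.span {((23 : ℕ) : ℤ)}).IsMaximal :=
    (Ideal.span_singleton_prime (by norm_num)).mpr
      (Nat.prime_iff_prime_int.mp (by norm_num)) |>.isMaximal (by simp)
  have hP := pid11_isPrime_span_gen23 K
  refine hmax.eq_of_le (Ideal.comap_ne_top _ hP.ne_top) ?_
  rw [Ideal.span_singleton_le_iff_mem, Ideal.mem_comap]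
  have := Ideal.absNorm_mem (Ideal.span {pid11_gen23 K})
  rw [pid11_absNorm_span_gen23] at this
  simpa using this

lemma pid11_minkowski_lt : ⌊(4 / Real.pi) ^ InfinitePlace.nrComplexPlaces K *
      ((Module.finrank ℚ K).factorial / (Module.finrank ℚ K) ^ Module.finrank ℚ K *
        √|(discr K : ℝ)|)⌋₊ < 67 := by
  have : Fact (Nat.Prime 11) := ⟨by norm_num⟩
  have hirr : Irreducible (cyclotomic 11 ℚ) := cyclotomic.irreducible_rat (by norm_num)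
  have h1 : InfinitePlace.nrComplexPlaces K = 5 := by
    rw [IsCyclotomicExtension.Rat.nrComplexPlaces_eq_totient_div_two 11,
      Nat.totient_prime (by norm_num)]
  have h2 : Module.finrank ℚ K = 10 := by
    rw [IsCyclotomicExtension.finrank (n := 11) K hirr, Nat.totient_prime (by norm_num)]
  have h3 : |(discr K : ℝ)| = 11 ^ 9 := by
    rw [IsCyclotomicExtension.Rat.discr_prime 11 K]
    norm_num
  rw [h1, h2, h3]
  have hs : √((11 : ℝ) ^ 9) < 48610 := by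
    rw [Real.sqrt_lt' (by norm_num)]
    norm_num
  have hpi : (4 / Real.pi) ^ 5 < (4 / 3.14) ^ 5 := by
    have := Real.pi_gt_d2
    gcongr
  rw [Nat.floor_lt (by positivity)]
  calc (4 / Real.pi) ^ 5 * (((10 : ℕ).factorial : ℝ) / ((10 : ℕ) : ℝ) ^ 10 * √((11 : ℝ) ^ 9))
      < (4 / 3.14) ^ 5 * (((10 : ℕ).factorial : ℝ) / ((10 : ℕ) : ℝ) ^ 10 * 48610) := by
        gcongr
    _ < ((67 : ℕ) : ℝ) := by
        norm_num [Nat.factorial]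

end

lemma pid11_two_le_orderOf {x : ZMod 11} (h0 : x ≠ 0) (h1 : x ≠ 1) : 2 ≤ orderOf x := by
  have : Fact (Nat.Prime 11) := ⟨by norm_num⟩
  have h10 : x ^ 10 = 1 := ZMod.pow_card_sub_one_eq_one h0
  have hpos : 0 < orderOf x := by
    apply Nat.pos_of_ne_zero
    intro h
    have := orderOf_dvd_of_pow_eq_one h10
    rw [h] at this
    simp at this
  have hne : orderOf x ≠ 1 := by
    rw [Ne, orderOf_eq_one_iff]; exact h1
  omega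

lemma pid11_order_bound (p : ℕ) (hpp : p.Prime) (h1 : 1 ≤ p) (hp67 : p < 67) (h11 : p ≠ 11)
    (h23 : p ≠ 23) : 67 ≤ p ^ orderOf ((p : ℕ) : ZMod 11) := by
  interval_cases p <;> first
    | (exfalso; revert hpp; norm_num; done)
    | (exfalso; exact h11 rfl)
    | (exfalso; exact h23 rfl)
    | (refine le_trans ?_ (Nat.pow_le_pow_right (by norm_num)
        (pid11_two_le_orderOf (by decide) (by decide))); norm_num; done)
    | skip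
  · have : orderOf ((2 : ℕ) : ZMod 11) = 10 := by
      rw [orderOf_eq_iff (by norm_num)]; decide
    rw [this]; norm_num
  · have : orderOf ((3 : ℕ) : ZMod 11) = 5 := by
      rw [orderOf_eq_iff (by norm_num)]; decide
    rw [this]; norm_num
  · have : orderOf ((5 : ℕ) : ZMod 11) = 5 := by
      rw [orderOf_eq_iff (by norm_num)]; decide
    rw [this]; norm_num
  · have : orderOf ((7 : ℕ) : ZMod 11) = 10 := by
      rw [orderOf_eq_iff (by norm_num)]; decide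
    rw [this]; norm_num

/-- The ring of integers of the `11`-th cyclotomic field is a principal ideal domain. -/
theorem pid_eleven (K : Type*) [Field K] [NumberField K] [IsCyclotomicExtension {11} ℚ K] :
    IsPrincipalIdealRing (𝓞 K) := by
  have : IsGalois ℚ K := IsCyclotomicExtension.isGalois {11} ℚ K
  have : Fact (Nat.Prime 11) := ⟨by norm_num⟩
  have hM := pid11_minkowski_lt K
  apply RingOfIntegers.isPrincipalIdealRing_of_isPrincipal_of_lt_or_isPrincipal_of_mem_primesOver_of_mem_Icc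
  intro p hp hpp
  have hp67 : p < 67 := lt_of_le_of_lt (Finset.mem_Icc.mp hp).2 hM
  have : Fact p.Prime := ⟨hpp⟩
  by_cases h11 : p = 11
  · subst h11
    obtain ⟨⟨P, hP1, hP2⟩⟩ := (Ideal.span {((11 : ℕ) : ℤ)}).nonempty_primesOver (S := 𝓞 K)
    refine ⟨P, ⟨hP1, hP2⟩, Or.inr ?_⟩
    rw [IsCyclotomicExtension.Rat.eq_span_zeta_sub_one_of_liesOver' 11 K (zeta_spec 11 ℚ K) P]
    exact ⟨⟨_, rfl⟩⟩
  by_cases h23 : p = 23
  · subst h23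
    exact ⟨Ideal.span {pid11_gen23 K}, ⟨pid11_isPrime_span_gen23 K, pid11_liesOver_span_gen23 K⟩,
      Or.inr ⟨⟨_, rfl⟩⟩⟩
  obtain ⟨⟨P, hP1, hP2⟩⟩ := (Ideal.span {(p : ℤ)}).nonempty_primesOver (S := 𝓞 K)
  refine ⟨P, ⟨hP1, hP2⟩, Or.inl ?_⟩
  have hnd : ¬ p ∣ 11 := (Nat.prime_dvd_prime_iff_eq hpp (by norm_num)).not.mpr h11
  rw [IsCyclotomicExtension.Rat.inertiaDeg_eq_of_not_dvd p K P hnd]
  exact lt_of_lt_of_le hM
    (pid11_order_bound p hpp (Finset.mem_Icc.mp hp).1 hp67 h11 h23)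

end Fermat.Agent.S11
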